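/-
Program I (S37), chapter TOP, helper8: the formal skeleton `J' := J ⧸ K`.

`K` := the `HeckeAlg`-submodule of `J` spanned by `τ • x - x` (`τ ∈ I_A`) and
`σ • σ • x - T_ℓ • (σ • x) + ℓ • x` (`σ` Frobenius at `A`).  `sp := mkQ`, `F` := induced by a fixed Frobenius `σ0`.
Everything is formal except `injective_torsion`, which is reduced to a homomorphism `Φ : J →+ G` killing the
generators and injective on the relevant torsion.
-/
import Mathlib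
import Fermat.Prelude.Def_ModularCurve_HeckeModule

set_option autoImplicit false

noncomputable section

namespace Fermat.Agent.ES.TOP.Skeleton8

open ModularCurve

section Abstract

variable {K L : Type*} [Field K] [Field L] [Algebra K L]
variable (p : ℕ) (J : Type) [AddCommGroup J] [Module HeckeAlg J]
  [DistribMulAction (L ≃ₐ[K] L) J] [SMulCommClass (L ≃ₐ[K] L) HeckeAlg J]
variable (A : ValuationSubring L) (ℓ : ℕ) (hℓ : ℓ.Prime)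

/-- the generators of the kernel. -/
def gens : Set J :=
  {y | ∃ τ ∈ A.inertiaSubgroupIn K, ∃ x : J, y = τ • x - x} ∪
  {y | ∃ σ : L ≃ₐ[K] L, A.IsFrobeniusAt σ ℓ ∧
    ∃ x : J, y = σ • σ • x - heckeGen ⟨ℓ, hℓ⟩ • (σ • x) + ℓ • x}

/-- the generators are stable under the Hecke algebra. -/
theorem smul_mem_gens (t : HeckeAlg) {y : J} (hy : y ∈ gens (K := K) J A ℓ hℓ) :
    t • y ∈ gens (K := K) J A ℓ hℓ := by
  rcases hy with ⟨τ, hτ, x, rfl⟩ | ⟨σ, hσ, x, rfl⟩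
  · left
    refine ⟨τ, hτ, t • x, ?_⟩
    rw [smul_sub, smul_comm τ t x]
  · right
    refine ⟨σ, hσ, t • x, ?_⟩
    rw [smul_add, smul_sub, smul_comm σ t x, smul_comm σ t (σ • x), smul_comm t (heckeGen ⟨ℓ, hℓ⟩),
      ← Nat.cast_smul_eq_nsmul ℤ ℓ x, ← Nat.cast_smul_eq_nsmul ℤ ℓ (t • x), smul_comm t (ℓ : ℤ) x]

/-- the kernel `K`. -/
def ker : Submodule HeckeAlg J := Submodule.span HeckeAlg (gens (K := K) J A ℓ hℓ)

theorem mem_closure_of_mem_span {y : J}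
    (hy : y ∈ Submodule.span HeckeAlg (gens (K := K) J A ℓ hℓ)) :
    y ∈ AddSubgroup.closure (gens (K := K) J A ℓ hℓ) := by
  induction hy using Submodule.span_induction with
  | mem y hy => exact AddSubgroup.subset_closure hy
  | zero => exact AddSubgroup.zero_mem _
  | add x y _ _ hx hy => exact AddSubgroup.add_mem _ hx hy
  | smul t x hxs hx =>
    clear hxs
    induction hx using AddSubgroup.closure_induction with
    | mem z hz => exact AddSubgroup.subset_closure (smul_mem_gens J A ℓ hℓ t hz)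
    | zero => rw [smul_zero]; exact AddSubgroup.zero_mem _
    | add a b _ _ ha hb => rw [smul_add]; exact AddSubgroup.add_mem _ ha hb
    | neg a _ ha => rw [smul_neg]; exact AddSubgroup.neg_mem _ ha

/-- a homomorphism killing the generators kills `K`. -/
theorem map_eq_zero_of_mem_ker {G : Type*} [AddCommGroup G] (Φ : J →+ G)
    (hΦ : ∀ y ∈ gens (K := K) J A ℓ hℓ, Φ y = 0) {y : J} (hy : y ∈ ker (K := K) J A ℓ hℓ) :
    Φ y = 0 := by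
  have hy' : y ∈ AddSubgroup.closure (gens (K := K) J A ℓ hℓ) := mem_closure_of_mem_span J A ℓ hℓ hy
  clear hy
  induction hy' using AddSubgroup.closure_induction with
  | mem z hz => exact hΦ z hz
  | zero => exact map_zero Φ
  | add a b _ _ ha hb => rw [map_add, ha, hb, add_zero]
  | neg a _ ha => rw [map_neg, ha, neg_zero]

/-- the action of a Galois element as a `HeckeAlg`-linear map. -/
def galLin (σ : L ≃ₐ[K] L) : J →ₗ[HeckeAlg] J where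
  toFun x := σ • x
  map_add' x y := smul_add σ x y
  map_smul' t x := smul_comm σ t x

variable {J A ℓ hℓ}

theorem ker_le_comap (σ0 : L ≃ₐ[K] L)
    (hI : ∀ τ ∈ A.inertiaSubgroupIn K, σ0 * τ * σ0⁻¹ ∈ A.inertiaSubgroupIn K)
    (hF : ∀ σ : L ≃ₐ[K] L, A.IsFrobeniusAt σ ℓ → A.IsFrobeniusAt (σ0 * σ * σ0⁻¹) ℓ) :
    ker (K := K) J A ℓ hℓ ≤ (ker (K := K) J A ℓ hℓ).comap (galLin J σ0) := by
  unfold ker
  rw [Submodule.span_le]
  intro y hy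
  apply Submodule.subset_span
  show σ0 • y ∈ gens (K := K) J A ℓ hℓ
  rcases hy with ⟨τ, hτ, x, rfl⟩ | ⟨σ, hσ, x, rfl⟩
  · left
    refine ⟨σ0 * τ * σ0⁻¹, hI τ hτ, σ0 • x, ?_⟩
    rw [smul_sub, mul_smul, mul_smul, inv_smul_smul]
  · right
    refine ⟨σ0 * σ * σ0⁻¹, hF σ hσ, σ0 • x, ?_⟩
    have e : ∀ z : J, (σ0 * σ * σ0⁻¹) • (σ0 • z) = σ0 • (σ • z) := by
      intro z
      rw [mul_smul, mul_smul, inv_smul_smul]
    rw [e x, e (σ • x), smul_add, smul_sub, smul_comm σ0 (heckeGen ⟨ℓ, hℓ⟩) (σ • x), smul_comm σ0 ℓ x]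

/-- **The formal skeleton.** -/
theorem exists_specialization (σ0 : L ≃ₐ[K] L) (hσ0 : A.IsFrobeniusAt σ0 ℓ)
    (hI : ∀ τ ∈ A.inertiaSubgroupIn K, σ0 * τ * σ0⁻¹ ∈ A.inertiaSubgroupIn K)
    (hF : ∀ σ : L ≃ₐ[K] L, A.IsFrobeniusAt σ ℓ → A.IsFrobeniusAt (σ0 * σ * σ0⁻¹) ℓ)
    (hFI : ∀ σ : L ≃ₐ[K] L, A.IsFrobeniusAt σ ℓ → σ * σ0⁻¹ ∈ A.inertiaSubgroupIn K)
    {G : Type*} [AddCommGroup G] (Φ : J →+ G)
    (h1 : ∀ τ ∈ A.inertiaSubgroupIn K, ∀ x : J, Φ (τ • x) = Φ x)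
    (h2 : ∀ σ : L ≃ₐ[K] L, A.IsFrobeniusAt σ ℓ → ∀ x : J,
      Φ (σ • σ • x - heckeGen ⟨ℓ, hℓ⟩ • (σ • x) + ℓ • x) = 0)
    (h3 : ∀ x : J, (∃ n : ℕ, p ^ n • x = 0) → Φ x = 0 → x = 0) :
    ∃ (J' : Type) (_ : AddCommGroup J') (_ : Module HeckeAlg J') (sp : J →+ J')
      (F : J' →+ J'),
      IsSpecialization (K := K) p J J' A ℓ sp F ∧ SpecialFibreRelation J' ℓ hℓ F := by
  set Kr := ker (K := K) J A ℓ hℓ with hKr
  have hΦ : ∀ y ∈ gens (K := K) J A ℓ hℓ, Φ y = 0 := by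
    rintro y (⟨τ, hτ, x, rfl⟩ | ⟨σ, hσ, x, rfl⟩)
    · rw [map_sub, h1 τ hτ x, sub_self]
    · exact h2 σ hσ x
  let Fl : (J ⧸ Kr) →ₗ[HeckeAlg] (J ⧸ Kr) := Kr.mapQ Kr (galLin J σ0) (ker_le_comap σ0 hI hF)
  refine ⟨J ⧸ Kr, inferInstance, inferInstance, Kr.mkQ.toAddMonoidHom, Fl.toAddMonoidHom, ?_, ?_⟩
  · refine ⟨?_, ?_, ?_, ?_⟩
    · intro T x
      exact Kr.mkQ.map_smul T x
    · intro τ hτ x
      show Kr.mkQ (τ • x) = Kr.mkQ x
      rw [← sub_eq_zero, ← map_sub, Submodule.mkQ_apply, Submodule.Quotient.mk_eq_zero]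
      exact Submodule.subset_span (Or.inl ⟨τ, hτ, x, rfl⟩)
    · intro σ hσ x
      show Kr.mkQ (σ • x) = Fl (Kr.mkQ x)
      have e : Fl (Kr.mkQ x) = Kr.mkQ (σ0 • x) := Submodule.mapQ_apply _ _ _ x
      rw [e, ← sub_eq_zero, ← map_sub, Submodule.mkQ_apply, Submodule.Quotient.mk_eq_zero]
      refine Submodule.subset_span (Or.inl ⟨σ * σ0⁻¹, hFI σ hσ, σ0 • x, ?_⟩)
      rw [mul_smul, inv_smul_smul]
    · intro x hx hsp
      apply h3 x hx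
      apply map_eq_zero_of_mem_ker J A ℓ hℓ Φ hΦ
      have : Kr.mkQ x = 0 := hsp
      rwa [Submodule.mkQ_apply, Submodule.Quotient.mk_eq_zero] at this
  · intro y
    obtain ⟨x, rfl⟩ := Kr.mkQ_surjective y
    show Fl (Fl (Kr.mkQ x)) - heckeGen ⟨ℓ, hℓ⟩ • Fl (Kr.mkQ x) + ℓ • Kr.mkQ x = 0
    have e : ∀ z : J, Fl (Kr.mkQ z) = Kr.mkQ (σ0 • z) := fun z => Submodule.mapQ_apply _ _ _ z
    rw [e x, e (σ0 • x), ← map_smul, ← map_nsmul, ← map_sub, ← map_add, Submodule.mkQ_apply,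
      Submodule.Quotient.mk_eq_zero]
    exact Submodule.subset_span (Or.inr ⟨σ0, hσ0, x, rfl⟩)

end Abstract

/-! ### The modular instance -/

section Modular

/-- **Contract (SP)** of Program I: a homomorphism `Φ : J₀(N) →+ G` which is inertia-invariant, kills the
Eichler–Shimura expressions and is injective on prime-to-`ℓ` torsion. -/
def SP (N ℓ : ℕ) [NeZero N] (hℓ : ℓ.Prime) (A : ValuationSubring (AlgebraicClosure ℚ)) : Prop :=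
  ∃ (G : Type) (_ : AddCommGroup G) (Φ : JZero N →+ G),
    (∀ τ ∈ A.inertiaSubgroupIn ℚ, ∀ x : JZero N, Φ (τ • x) = Φ x) ∧
    (∀ σ : AlgebraicClosure ℚ ≃ₐ[ℚ] AlgebraicClosure ℚ, A.IsFrobeniusAt σ ℓ → ∀ x : JZero N,
      Φ (σ • σ • x - heckeOperatorBar N ⟨ℓ, hℓ⟩ (σ • x) + ℓ • x) = 0) ∧
    (∀ (m : ℕ) (x : JZero N), ¬ ℓ ∣ m → m • x = 0 → Φ x = 0 → x = 0)

/-- **Contract (FROB)**: a Frobenius `σ0` at `A` with the three group-theoretic facts. -/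
def FrobFacts (ℓ : ℕ) (A : ValuationSubring (AlgebraicClosure ℚ)) : Prop :=
  ∃ σ0 : AlgebraicClosure ℚ ≃ₐ[ℚ] AlgebraicClosure ℚ, A.IsFrobeniusAt σ0 ℓ ∧
    (∀ τ ∈ A.inertiaSubgroupIn ℚ, σ0 * τ * σ0⁻¹ ∈ A.inertiaSubgroupIn ℚ) ∧
    (∀ σ : AlgebraicClosure ℚ ≃ₐ[ℚ] AlgebraicClosure ℚ, A.IsFrobeniusAt σ ℓ →
      A.IsFrobeniusAt (σ0 * σ * σ0⁻¹) ℓ) ∧
    (∀ σ : AlgebraicClosure ℚ ≃ₐ[ℚ] AlgebraicClosure ℚ, A.IsFrobeniusAt σ ℓ →
      σ * σ0⁻¹ ∈ A.inertiaSubgroupIn ℚ)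

/-- **TOP**: the frozen statement S37 from the contracts (SP) and (FROB). -/
theorem s37_of_SP (N p : ℕ) [NeZero N] (hcomm : HeckeOperatorsCommuteBar N)
    (hSP : ∀ (ℓ : ℕ) (hℓ : ℓ.Prime), ¬ ℓ ∣ N →
      ∀ A : ValuationSubring (AlgebraicClosure ℚ), A.LiesOverPrime ℓ → SP N ℓ hℓ A)
    (hFrob : ∀ (ℓ : ℕ), ℓ.Prime →
      ∀ A : ValuationSubring (AlgebraicClosure ℚ), A.LiesOverPrime ℓ → FrobFacts ℓ A) :
    letI := heckeModuleBar N
    ∀ (_ : SMulCommClass (AlgebraicClosure ℚ ≃ₐ[ℚ] AlgebraicClosure ℚ) HeckeAlg (JZero N)),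
      SpecializationExists (K := ℚ) (L := AlgebraicClosure ℚ) N p (JZero N) := by
  letI := heckeModuleBar N
  intro hsmul ℓ hℓ hℓNp A hA
  have hℓN : ¬ ℓ ∣ N := fun h => hℓNp (h.mul_right p)
  have hℓp : ¬ ℓ ∣ p := fun h => hℓNp (h.mul_left N)
  obtain ⟨G, _, Φ, h1, h2, h3⟩ := hSP ℓ hℓ hℓN A hA
  obtain ⟨σ0, hσ0, hI, hF, hFI⟩ := hFrob ℓ hℓ A hA
  refine exists_specialization (K := ℚ) p σ0 hσ0 hI hF hFI Φ h1 ?_ ?_
  · intro σ hσ x
    rw [heckeModuleBar_heckeGen_smul hcomm]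
    exact h2 σ hσ x
  · rintro x ⟨n, hn⟩ hx
    exact h3 (p ^ n) x (fun h => hℓp (hℓ.dvd_of_dvd_pow h)) hn hx

end Modular

end Fermat.Agent.ES.TOP.Skeleton8
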