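/-
Program I (S37), chapter TOP, helper8: the auxiliary level `M = auxLevel ℓ N` carries a Hauptmodul
base `(n, e) ∈ {(4, 8), (9, 3)}` with `n ∣ M`; packaged so that statements proved for a general level
`M` with `hb : BaseHyp n e`, `hnM : n ∣ M`, `hℓM : ¬ ℓ ∣ M` specialise to `auxLevel ℓ N` without a case
split at the call site.
-/
import Mathlib
import Fermat.Agent.RED.Interface4
import Fermat.Agent.RED.BASE.Hauptmodul12
import Fermat.Agent.RED.BASE.MainCusp12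

set_option autoImplicit false

namespace Fermat.Agent.ES.TOP.AuxBase8

open Fermat.Agent.RED.Interface4 Fermat.Agent.RED.BASE.Hauptmodul12
  Fermat.Agent.RED.BASE.MainCusp12

/-- `4 ∣ auxLevel ℓ N` for `ℓ ≠ 2`. -/
theorem four_dvd_auxLevel {ℓ : ℕ} (N : ℕ) (h2 : ℓ ≠ 2) : 4 ∣ auxLevel ℓ N := by
  unfold auxLevel
  rw [if_neg h2]
  exact Nat.dvd_lcm_right N 4

/-- `9 ∣ auxLevel 2 N`. -/
theorem nine_dvd_auxLevel {ℓ : ℕ} (N : ℕ) (h2 : ℓ = 2) : 9 ∣ auxLevel ℓ N := by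
  unfold auxLevel
  rw [if_pos h2]
  exact Nat.dvd_lcm_right N 9

/-- **Reduction to a general level**: a statement `C M` proved for every level `M` carrying a base
`(n, e)` with `n ∣ M` (and `ℓ ∤ M`) holds at `M = auxLevel ℓ N` for `ℓ ∤ N`. -/
theorem of_base {ℓ N : ℕ} (hℓ : ℓ.Prime) (hN : N ≠ 0) (hℓN : ¬ ℓ ∣ N) (C : ℕ → Prop)
    (h : ∀ (n e : ℕ) [NeZero n], BaseHyp n e → ∀ M : ℕ, M ≠ 0 → n ∣ M → N ∣ M → ¬ ℓ ∣ M → C M) :
    C (auxLevel ℓ N) := by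
  have hM0 : auxLevel ℓ N ≠ 0 := (auxLevel_pos (Nat.pos_of_ne_zero hN)).ne'
  have hℓM : ¬ ℓ ∣ auxLevel ℓ N := not_dvd_auxLevel hℓ hℓN
  by_cases h2 : ℓ = 2
  · haveI : NeZero 9 := ⟨by norm_num⟩
    exact h 9 3 baseHyp_nine _ hM0 (nine_dvd_auxLevel N h2) (dvd_auxLevel ℓ N) hℓM
  · haveI : NeZero 4 := ⟨by norm_num⟩
    exact h 4 8 baseHyp_four _ hM0 (four_dvd_auxLevel N h2) (dvd_auxLevel ℓ N) hℓM

end Fermat.Agent.ES.TOP.AuxBase8
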