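/-
Program I (S37), chapter TOP, helper21: **(Φ1)** and **(Φ2)** for `Φ := red ∘ π^*`,
`red := reductionPic0Along r hr hgen` at level `M` (explicit `r`), `π^* := levelPullback h`.

* `red_heckeOperatorAlong`: the `Pic⁰` passage of (ES-div):
  `red (T_ℓ z) = Fr • red z + ℓ • (Fr⁻¹ • red z)` from the divisor identity
  `r_* (T_ℓ D) = Fr_* (r_* D) + ℓ · Fr⁻¹_* (r_* D)` (shape of `EsDivMain24.es_div_main`);
* `phi_one`: `Φ (τ • x) = Φ x` for `τ ∈ I_A`, from `r (τ P) = r P`;
* `phi_two`: `Φ (σ σ x - T_ℓ (σ x) + ℓ x) = 0` for `σ` Frobenius at `A`, from `r (σ P) = Fr (r P)`,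
  (ES-div) at level `M` and the level compatibility `π^* T_ℓ = T_ℓ π^*`;
* `sp_of_phi`: the contract `Skeleton8.SP` from the three inputs and (Φ3).
-/
import Mathlib
import Fermat.Agent.ES.RED.GaloisRed21
import Fermat.Agent.ES.RED.PullbackInj12
import Fermat.Agent.ES.KRON.FrobPlace13
import Fermat.Agent.ES.HECKE.PointFormula28
import Fermat.Agent.ES.HECKE.InputsFinal15
import Fermat.Agent.ES.TOP.Skeleton8

set_option autoImplicit false
set_option synthInstance.maxHeartbeats 400000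

noncomputable section

open AlgebraicCurve ModularCurve IntermediateField

namespace Fermat.Agent.ES.TOP.PhiOneTwo21

open Fermat.Agent.ES.HECKE.LevelPullback12 Fermat.Agent.ES.KRON.FrobPlace13
open Fermat.Agent.ES.HECKE Fermat.Agent.ES.RED

/-! ### The `Pic⁰` passage of (ES-div) -/

section EsPic

variable {L : Type*} [Field L] [Algebra ℚ L] {A : ValuationSubring L}
variable {k : Type*} [Field k] {π : A →+* k} {M : ℕ} [NeZero M]
variable (r : Place L (laurentBaseChange L (modularFunctionFieldFull M)) →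
  Place k (modularFunctionFieldFullC k M))

/-- **(ES) on `Pic⁰`**: `red (T_ℓ z) = Fr • red z + ℓ • (Fr⁻¹ • red z)` from the divisor identity
(ES-div). -/
theorem red_heckeOperatorAlong {ℓ : ℕ} [NeZero ℓ] [ExpChar k ℓ] [PerfectField k]
    (hr : IsPlaceReductionAlong A π M r) (hgen : PrincipalGeneratedByIntegral A π M)
    (hα : HeckeAlphaBarIntegral L M ℓ) (hβ : HeckeBetaBarIntegral L M ℓ)
    [HasPrincipalDivisors L (laurentBaseChange L (modularFunctionFieldFull (M * ℓ)))]
    (hFI : FundamentalIdentityAlong L (heckeBetaBar L M ℓ) hβ)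
    (hfin : FiniteAlong L (heckeAlphaBar L M ℓ))
    (hN : NormFormulaAlong L (heckeAlphaBar L M ℓ) hfin)
    (hES : ∀ D : Divisor L (laurentBaseChange L (modularFunctionFieldFull M)),
      Finsupp.mapDomain r (heckeDivBar hα hβ D) =
        Finsupp.mapDomain (frobPlace k ℓ M) (Finsupp.mapDomain r D) +
          (ℓ : ℤ) • Finsupp.mapDomain (frobPlace k ℓ M).symm (Finsupp.mapDomain r D))
    (z : Pic0 L (laurentBaseChange L (modularFunctionFieldFull M))) :
    reductionPic0Along r hr hgen (heckeOperatorAlong L M ℓ z) =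
      frobSemi k ℓ M • reductionPic0Along r hr hgen z +
        ℓ • ((frobSemi k ℓ M)⁻¹ • reductionPic0Along r hr hgen z) := by
  obtain ⟨D, rfl⟩ := Pic0.mk_surjective z
  rw [PointFormula28.heckeOperatorAlong_mk hα hβ hFI hfin hN, reductionPic0Along_mk,
    reductionPic0Along_mk, SemilinearAut.pic0_smul_mk, SemilinearAut.pic0_smul_mk]
  have key : reductionDegZeroAlong r hr.1
      (Pic0.degZeroCorrespondence (heckeBetaBar L M ℓ) (heckeAlphaBar L M ℓ) hβ hα hFI D) =
      SemilinearAut.degZeroSMulHom (frobSemi k ℓ M) (reductionDegZeroAlong r hr.1 D) +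
        ℓ • SemilinearAut.degZeroSMulHom (frobSemi k ℓ M)⁻¹ (reductionDegZeroAlong r hr.1 D) := by
    apply Subtype.ext
    rw [coe_reductionDegZeroAlong, Pic0.coe_degZeroCorrespondence, AddSubgroup.coe_add,
      AddSubgroup.coe_nsmul, SemilinearAut.coe_degZeroSMulHom, SemilinearAut.coe_degZeroSMulHom,
      coe_reductionDegZeroAlong, SemilinearAut.divisor_smul_def, SemilinearAut.divisor_smul_def,
      ← Nat.cast_smul_eq_nsmul ℤ]
    exact hES D
  rw [key]
  show QuotientAddGroup.mk' _ _ = QuotientAddGroup.mk' _ _ + ℓ • QuotientAddGroup.mk' _ _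
  rw [map_add, map_nsmul]

end EsPic

/-! ### `Φ := red ∘ π^*` -/

section Phi

local notation "Qb" => AlgebraicClosure ℚ

variable {N M : ℕ} [NeZero N] [NeZero M] (h : N ∣ M) {A : ValuationSubring Qb}
variable (r : Place Qb (modularFunctionFieldBar M) →
  Place (IsLocalRing.ResidueField A) (modularFunctionFieldFullC (IsLocalRing.ResidueField A) M))
variable (hr : IsPlaceReductionAlong A (IsLocalRing.residue A) M r)
  (hgen : PrincipalGeneratedByIntegral A (IsLocalRing.residue A) M)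

/-- `Φ := red ∘ π^* : J₀(N)(ℚ̄) →+ J̃₀(M)(k)`. -/
def Phi : JZero N →+ JZeroC (IsLocalRing.ResidueField A) M :=
  (reductionPic0Along r hr hgen).comp (levelPullback h)

theorem Phi_apply (x : JZero N) :
    Phi h r hr hgen x = reductionPic0Along r hr hgen (levelPullback h x) := rfl

/-- `Φ (σ • x) = red (σ • π^* x)`. -/
theorem Phi_smul (σ : Qb ≃ₐ[ℚ] Qb) (x : JZero N) :
    Phi h r hr hgen (σ • x) =
      reductionPic0Along r hr hgen
        (arithmeticGalois (modularFunctionFieldFull M) σ • levelPullback h x) := by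
  rw [Phi_apply, PullbackInj12.levelPullback_smul h σ x, galois_smul_pic0_def]

/-- **(Φ1)**: `Φ` is invariant under the inertia group, from `r (τ P) = r P`. -/
theorem phi_one
    (hI : ∀ τ ∈ A.inertiaSubgroupIn ℚ, ∀ P : Place Qb (modularFunctionFieldBar M),
      r (arithmeticGalois (modularFunctionFieldFull M) τ • P) = r P) :
    ∀ τ ∈ A.inertiaSubgroupIn ℚ, ∀ x : JZero N,
      Phi h r hr hgen (τ • x) = Phi h r hr hgen x := by
  intro τ hτ x
  rw [Phi_smul, Phi_apply]
  exact GaloisRed21.reductionPic0Along_smul_of_fixed r hr hgen _ (hI τ hτ) _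

/-- **(Φ2)**: `Φ` kills the Eichler–Shimura expressions, from `r (σ P) = Fr (r P)`, the `Pic⁰` form of
(ES) at level `M` and the level compatibility `π^* T_ℓ = T_ℓ π^*`. -/
theorem phi_two {ℓ : ℕ} (hℓ : ℓ.Prime) [NeZero ℓ] [ExpChar (IsLocalRing.ResidueField A) ℓ]
    [PerfectField (IsLocalRing.ResidueField A)]
    (hFr : ∀ σ : Qb ≃ₐ[ℚ] Qb, A.IsFrobeniusAt σ ℓ → ∀ P : Place Qb (modularFunctionFieldBar M),
      r (arithmeticGalois (modularFunctionFieldFull M) σ • P) =
        frobSemi (IsLocalRing.ResidueField A) ℓ M • r P)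
    (hESp : ∀ z : JZero M, reductionPic0Along r hr hgen (heckeOperatorAlong Qb M ℓ z) =
      frobSemi (IsLocalRing.ResidueField A) ℓ M • reductionPic0Along r hr hgen z +
        ℓ • ((frobSemi (IsLocalRing.ResidueField A) ℓ M)⁻¹ • reductionPic0Along r hr hgen z))
    (hH5 : ∀ x : JZero N, levelPullback h (heckeOperatorAlong Qb N ℓ x) =
      heckeOperatorAlong Qb M ℓ (levelPullback h x)) :
    ∀ σ : Qb ≃ₐ[ℚ] Qb, A.IsFrobeniusAt σ ℓ → ∀ x : JZero N,
      Phi h r hr hgen (σ • σ • x - heckeOperatorBar N ⟨ℓ, hℓ⟩ (σ • x) + ℓ • x) = 0 := by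
  intro σ hσ x
  have hred : ∀ y : JZero M,
      reductionPic0Along r hr hgen (arithmeticGalois (modularFunctionFieldFull M) σ • y) =
        frobSemi (IsLocalRing.ResidueField A) ℓ M • reductionPic0Along r hr hgen y :=
    GaloisRed21.reductionPic0Along_smul r hr hgen _ _ (hFr σ hσ)
  have e1 : Phi h r hr hgen (σ • x) =
      frobSemi (IsLocalRing.ResidueField A) ℓ M • Phi h r hr hgen x := by
    rw [Phi_smul, hred, Phi_apply]
  have e2 : Phi h r hr hgen (σ • σ • x) =
      frobSemi (IsLocalRing.ResidueField A) ℓ M •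
        (frobSemi (IsLocalRing.ResidueField A) ℓ M • Phi h r hr hgen x) := by
    rw [Phi_smul, hred, ← Phi_apply, e1]
  have e3 : Phi h r hr hgen (heckeOperatorBar N ⟨ℓ, hℓ⟩ (σ • x)) =
      frobSemi (IsLocalRing.ResidueField A) ℓ M •
          (frobSemi (IsLocalRing.ResidueField A) ℓ M • Phi h r hr hgen x) +
        ℓ • Phi h r hr hgen x := by
    have e : heckeOperatorBar N ⟨ℓ, hℓ⟩ (σ • x) = heckeOperatorAlong Qb N ℓ (σ • x) := rfl
    rw [e, Phi_apply, hH5, hESp, ← Phi_apply, e1, inv_smul_smul]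
  rw [map_add, map_sub, map_nsmul, e2, e3]
  abel

/-- The contract **(SP)** of Program I from (R3) (inertia and Frobenius), (ES) on `Pic⁰` at level `M`,
the level compatibility (H5) and (Φ3). -/
theorem sp_of_phi {ℓ : ℕ} (hℓ : ℓ.Prime) [NeZero ℓ] [ExpChar (IsLocalRing.ResidueField A) ℓ]
    [PerfectField (IsLocalRing.ResidueField A)]
    (hI : ∀ τ ∈ A.inertiaSubgroupIn ℚ, ∀ P : Place Qb (modularFunctionFieldBar M),
      r (arithmeticGalois (modularFunctionFieldFull M) τ • P) = r P)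
    (hFr : ∀ σ : Qb ≃ₐ[ℚ] Qb, A.IsFrobeniusAt σ ℓ → ∀ P : Place Qb (modularFunctionFieldBar M),
      r (arithmeticGalois (modularFunctionFieldFull M) σ • P) =
        frobSemi (IsLocalRing.ResidueField A) ℓ M • r P)
    (hESp : ∀ z : JZero M, reductionPic0Along r hr hgen (heckeOperatorAlong Qb M ℓ z) =
      frobSemi (IsLocalRing.ResidueField A) ℓ M • reductionPic0Along r hr hgen z +
        ℓ • ((frobSemi (IsLocalRing.ResidueField A) ℓ M)⁻¹ • reductionPic0Along r hr hgen z))
    (hH5 : ∀ x : JZero N, levelPullback h (heckeOperatorAlong Qb N ℓ x) =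
      heckeOperatorAlong Qb M ℓ (levelPullback h x))
    (h3 : ∀ (m : ℕ) (x : JZero N), ¬ ℓ ∣ m → m • x = 0 →
      reductionPic0Along r hr hgen (levelPullback h x) = 0 → x = 0) :
    Skeleton8.SP N ℓ hℓ A :=
  ⟨JZeroC (IsLocalRing.ResidueField A) M, inferInstance, Phi h r hr hgen,
    phi_one h r hr hgen hI, phi_two h r hr hgen hℓ hFr hESp hH5, h3⟩

/-- (ES) on `Pic⁰` over `ℚ̄` at level `M`, `ℓ ∤ M`, with the landed Hecke inputs (H1) plugged in:
only the divisor identity (ES-div) remains as a hypothesis (any proofs `hα`, `hβ` of integrality). -/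
theorem red_heckeOperatorAlong_bar {ℓ : ℕ} (hℓ : ℓ.Prime) [NeZero ℓ] (hℓM : ¬ ℓ ∣ M)
    [ExpChar (IsLocalRing.ResidueField A) ℓ] [PerfectField (IsLocalRing.ResidueField A)]
    (hα : HeckeAlphaBarIntegral Qb M ℓ) (hβ : HeckeBetaBarIntegral Qb M ℓ)
    [HasPrincipalDivisors Qb (laurentBaseChange Qb (modularFunctionFieldFull (M * ℓ)))]
    (hES : ∀ D : Divisor Qb (laurentBaseChange Qb (modularFunctionFieldFull M)),
      Finsupp.mapDomain r (heckeDivBar hα hβ D) =
        Finsupp.mapDomain (frobPlace (IsLocalRing.ResidueField A) ℓ M) (Finsupp.mapDomain r D) +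
          (ℓ : ℤ) • Finsupp.mapDomain (frobPlace (IsLocalRing.ResidueField A) ℓ M).symm
            (Finsupp.mapDomain r D))
    (z : JZero M) :
    reductionPic0Along r hr hgen (heckeOperatorAlong Qb M ℓ z) =
      frobSemi (IsLocalRing.ResidueField A) ℓ M • reductionPic0Along r hr hgen z +
        ℓ • ((frobSemi (IsLocalRing.ResidueField A) ℓ M)⁻¹ • reductionPic0Along r hr hgen z) :=
  red_heckeOperatorAlong r hr hgen hα hβ
    (InputsMain19.fundamentalIdentityAlong_beta M ℓ hℓ hℓM)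
    (AlongDegree25.finiteAlong_alpha Qb M ℓ hℓ hℓM)
    (InputsFinal15.normFormulaAlong_alpha M ℓ hℓ hℓM) hES z

/-- The contract **(SP)** from (R3) (inertia and Frobenius), the divisor identity (ES-div) at level `M`,
the level compatibility (H5) and (Φ3). -/
theorem sp_of_phi_div {ℓ : ℕ} (hℓ : ℓ.Prime) [NeZero ℓ] (hℓM : ¬ ℓ ∣ M)
    [ExpChar (IsLocalRing.ResidueField A) ℓ] [PerfectField (IsLocalRing.ResidueField A)]
    (hα : HeckeAlphaBarIntegral Qb M ℓ) (hβ : HeckeBetaBarIntegral Qb M ℓ)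
    [HasPrincipalDivisors Qb (laurentBaseChange Qb (modularFunctionFieldFull (M * ℓ)))]
    (hI : ∀ τ ∈ A.inertiaSubgroupIn ℚ, ∀ P : Place Qb (modularFunctionFieldBar M),
      r (arithmeticGalois (modularFunctionFieldFull M) τ • P) = r P)
    (hFr : ∀ σ : Qb ≃ₐ[ℚ] Qb, A.IsFrobeniusAt σ ℓ → ∀ P : Place Qb (modularFunctionFieldBar M),
      r (arithmeticGalois (modularFunctionFieldFull M) σ • P) =
        frobSemi (IsLocalRing.ResidueField A) ℓ M • r P)
    (hES : ∀ D : Divisor Qb (laurentBaseChange Qb (modularFunctionFieldFull M)),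
      Finsupp.mapDomain r (heckeDivBar hα hβ D) =
        Finsupp.mapDomain (frobPlace (IsLocalRing.ResidueField A) ℓ M) (Finsupp.mapDomain r D) +
          (ℓ : ℤ) • Finsupp.mapDomain (frobPlace (IsLocalRing.ResidueField A) ℓ M).symm
            (Finsupp.mapDomain r D))
    (hH5 : ∀ x : JZero N, levelPullback h (heckeOperatorAlong Qb N ℓ x) =
      heckeOperatorAlong Qb M ℓ (levelPullback h x))
    (h3 : ∀ (m : ℕ) (x : JZero N), ¬ ℓ ∣ m → m • x = 0 →
      reductionPic0Along r hr hgen (levelPullback h x) = 0 → x = 0) :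
    Skeleton8.SP N ℓ hℓ A :=
  sp_of_phi h r hr hgen hℓ hI hFr
    (red_heckeOperatorAlong_bar r hr hgen hℓ hℓM hα hβ hES) hH5 h3

end Phi

end Fermat.Agent.ES.TOP.PhiOneTwo21
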