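/-
Program I (S37), chapter TOP (helper12): **`sp_of_inputs`** — the contract `Skeleton8.SP N ℓ hℓ A`
from the CONCRETE inputs of chapters RED (B1) and KRON at the auxiliary level `M = auxLevel ℓ N`.

* `sp_of_inputs_level` : `SP` from `T : TwoCharts A hx F~_M` at ANY level `M` (`N ∣ M`, `ℓ ∤ M`),
  `h0 h1 : RedMain15.ChartInputs A M T.S0 / T.S1`, `c0 c1 : GaloisInst21.CoeffChart T.S0 / T.S1`,
  `hfix : Fr • s~ = s~`, and `(Φ3)` as a hypothesis (= `PhiOneTwo21.sp_of_phi_div` with all inputs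
  plugged: (Rgen) `GaussUnit25`, Hecke inputs at level `M`, (ES-div) `EsDivFinal24.es_div_final`,
  (R3) `GaloisInst21`, (H5) `LevelTop20`; `hintU0/1` of KRON are derived from `CoeffChart.mem_iff`);
* `sp_of_inputs` : the same at `M = auxLevel ℓ N` (hypothesis `hM`), `(Φ3)` discharged by
  `PhiThree12.phi_three` + `S18Exports4.clBar_aux` (Program H);
* `sp_of_model` : the same from the model data only (`RedInst15`: charts `t`, `t⁻¹` over a Hauptmodul
  base `(n, e)`, `n ∣ M`): `T`, `c0`, `c1`, `hs0 : T.S0.s = tF M hmem`, (PEEL-a) for both charts;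
* `Model n e A M` : B1's deliverable as ONE proposition; `sp_of_base` : `SP` from
  `∀ (n, e) base, ∀ M, n ∣ M → ℓ ∤ M → Model n e A M` (through `AuxBase8.of_base`).
-/
import Mathlib
import Fermat.Agent.ES.TOP.PhiOneTwo21
import Fermat.Agent.ES.TOP.AuxBase8
import Fermat.Agent.ES.RED.PhiThree12
import Fermat.Agent.ES.RED.GaussUnit25
import Fermat.Agent.ES.RED.GaloisInst21
import Fermat.Agent.ES.RED.RedMain15
import Fermat.Agent.ES.RED.RedInst15
import Fermat.Agent.ES.RED.FrobPoles13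
import Fermat.Agent.ES.KRON.EsDivFinal24
import Fermat.Agent.ES.HECKE.LevelTop20
import Fermat.Agent.RED.S18Exports4

set_option autoImplicit false
set_option synthInstance.maxHeartbeats 400000
set_option linter.unusedSectionVars false
set_option linter.style.haveILetI false

noncomputable section

open AlgebraicCurve ModularCurve IntermediateField HahnSeries

namespace Fermat.Agent.ES.TOP.SPInputs12

open Fermat.Agent.ES.HECKE.LevelPullback12 Fermat.Agent.RED.Interface4 Fermat.Agent.RED.LVL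
  Fermat.Agent.ES.TOP.Skeleton8
  Fermat.Agent.ES.RED.Contract8 Fermat.Agent.ES.RED.TwoCharts8 Fermat.Agent.ES.RED.RedMain15
  Fermat.Agent.ES.RED.GaloisInst21 Fermat.Agent.ES.RED.PlaceValue13
  Fermat.Agent.ES.KRON.FrobPlace13 Fermat.Agent.X0.FF
  Fermat.Agent.RED.BASE Fermat.Agent.RED.BASE.Hauptmodul12

/-- `ℚbar`. -/
local notation "Qb" => AlgebraicClosure ℚ

section General

variable {N M : ℕ} [NeZero N] [NeZero M] {A : ValuationSubring Qb}
  {x : ↥(modularFunctionFieldBar M)} {hx : IsGen Qb x}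

/-- `hintU` of KRON from `CoeffChart.mem_iff`: a place at which `s` is regular contains the
chart ring. -/
theorem hintU_of_coeffChart {S : ChartSpec A hx ↥(modularFunctionFieldFullC (kA A) M)}
    (c : CoeffChart (F₀ := modularFunctionFieldFull M) S)
    (P : Place Qb ↥(laurentBaseChange Qb (modularFunctionFieldFull M)))
    (hP : S.s ∈ P.toValuationSubring) (b : ↥(laurentBaseChange Qb (modularFunctionFieldFull M)))
    (hb : b ∈ S.B) : b ∈ P.toValuationSubring :=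
  Fermat.Agent.ES.RED.ChartFacts9.mem_place_of_mem_chart A P ((ffp_mem_iff_ord_nonneg P).1 hP)
    ((c.mem_iff b).1 hb)

variable (T : TwoCharts A hx ↥(modularFunctionFieldFullC (kA A) M))

/-- **`SP` from the concrete inputs at a level `M`** (`N ∣ M`, `ℓ ∤ M`), with `(Φ3)` as a
hypothesis. -/
theorem sp_of_inputs_level {ℓ : ℕ} (h : N ∣ M) (hℓ : ℓ.Prime) (hℓM : ¬ ℓ ∣ M)
    (hA : A.LiesOverPrime ℓ)
    (h0 : ChartInputs A M T.S0) (h1 : ChartInputs A M T.S1)
    (c0 : CoeffChart (F₀ := modularFunctionFieldFull M) T.S0)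
    (c1 : CoeffChart (F₀ := modularFunctionFieldFull M) T.S1)
    (hfix : ∀ [ExpChar (kA A) ℓ] [PerfectField (kA A)],
      frobSemi (kA A) ℓ M • T.S0.red T.S0.sB = T.S0.red T.S0.sB)
    (h3 : ∀ (hr : IsPlaceReductionAlong A (IsLocalRing.residue ↥A) M T.r)
      (hgen : PrincipalGeneratedByIntegral A (IsLocalRing.residue ↥A) M) (m : ℕ) (y : JZero N),
      ¬ ℓ ∣ m → m • y = 0 → reductionPic0Along T.r hr hgen (levelPullback h y) = 0 → y = 0) :
    SP N ℓ hℓ A := by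
  haveI : Fact ℓ.Prime := ⟨hℓ⟩
  haveI : NeZero ℓ := ⟨hℓ.ne_zero⟩
  haveI : IsAlgClosed (kA A) := Fermat.Agent.ES.KRON.KronInst10.isAlgClosed_residueField A
  haveI : CharP (kA A) ℓ := Fermat.Agent.ES.KRON.KronInst10.charP_residueField A hℓ hA
  haveI : ExpChar (kA A) ℓ := ExpChar.prime hℓ
  haveI : PerfectField (kA A) := inferInstance
  haveI := Fermat.Agent.ES.HECKE.InputsMain19.hasPrincipalDivisors_level M ℓ
  have hr : IsPlaceReductionAlong A (IsLocalRing.residue ↥A) M T.r :=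
    isPlaceReductionModL_twoCharts T h0 h1
  have hgen : PrincipalGeneratedByIntegral A (IsLocalRing.residue ↥A) M :=
    Fermat.Agent.ES.RED.GaussUnit25.principalGeneratedByIntegral A ℓ hA M hℓM
  have hα := Fermat.Agent.ES.HECKE.AlongDegree25.heckeAlphaBarIntegral Qb M ℓ hℓ hℓM
  have hβ := Fermat.Agent.ES.HECKE.AlongDegree25.heckeBetaBarIntegral Qb M ℓ hℓ hℓM
  refine Fermat.Agent.ES.TOP.PhiOneTwo21.sp_of_phi_div h T.r hr hgen hℓ hℓM hα hβ ?_ ?_ ?_ ?_
    (h3 hr hgen)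
  · intro τ hτ P
    exact r_smul_of_mem_inertia' T h0.gent c0 c1 hτ P
  · intro σ hσ P
    exact r_smul_of_isFrobeniusAt' T h0.gent c0 c1 hσ P
  · intro D
    exact Fermat.Agent.ES.KRON.EsDivFinal24.es_div_final M ℓ A T h0 h1 hℓM hα hβ
      (Fermat.Agent.ES.HECKE.InputsMain19.fundamentalIdentityAlong_beta M ℓ hℓ hℓM)
      (Fermat.Agent.ES.HECKE.AlongDegree25.finiteAlong_alpha Qb M ℓ hℓ hℓM)
      (Fermat.Agent.ES.HECKE.InputsFinal15.normFormulaAlong_alpha M ℓ hℓ hℓM)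
      (fun P hP b hb => hintU_of_coeffChart c0 P hP b hb)
      (fun P hP b hb => hintU_of_coeffChart c1 P hP b hb) hfix D
  · intro y
    exact Fermat.Agent.ES.HECKE.LevelTop20.levelPullback_heckeOperatorAlong h hℓ hℓM y

/-- **`sp_of_inputs`**: `SP N ℓ hℓ A` from the concrete inputs at the auxiliary level
(`hM : M = auxLevel ℓ N`); `(Φ3)` = Program H's core lemma (`S18Exports4.clBar_aux`). -/
theorem sp_of_inputs {ℓ : ℕ} (hM : M = auxLevel ℓ N) (hℓ : ℓ.Prime) (hℓN : ¬ ℓ ∣ N)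
    (hA : A.LiesOverPrime ℓ)
    (h0 : ChartInputs A M T.S0) (h1 : ChartInputs A M T.S1)
    (c0 : CoeffChart (F₀ := modularFunctionFieldFull M) T.S0)
    (c1 : CoeffChart (F₀ := modularFunctionFieldFull M) T.S1)
    (hfix : ∀ [ExpChar (kA A) ℓ] [PerfectField (kA A)],
      frobSemi (kA A) ℓ M • T.S0.red T.S0.sB = T.S0.red T.S0.sB) :
    SP N ℓ hℓ A := by
  subst hM
  haveI : Fact ℓ.Prime := ⟨hℓ⟩
  refine sp_of_inputs_level T (dvd_auxLevel ℓ N) hℓ (not_dvd_auxLevel hℓ hℓN) hA h0 h1 c0 c1 hfix ?_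
  intro hr hgen m y hm hmy hy
  exact Fermat.Agent.ES.RED.PhiThree12.phi_three A
    (Fermat.Agent.RED.S18Exports4.clBar_aux N ℓ hℓN A hA) T.r hr hgen m hm y hmy hy

/-- **`sp_of_model`**: `SP N ℓ hℓ A` from the two-chart model alone (charts with coordinates `t`,
`t⁻¹` for a Hauptmodul base `(n, e)`, coefficientwise, with (PEEL-a)); the `ChartInputs` are
`RedInst15.chartInputs_both`, `hfix` is `FrobPoles13.frobSemi_smul_tq`. -/
theorem sp_of_model (n e : ℕ) [NeZero n] {ℓ : ℕ} (hM : M = auxLevel ℓ N) (hℓ : ℓ.Prime)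
    (hℓN : ¬ ℓ ∣ N) (hA : A.LiesOverPrime ℓ)
    (hmem : Interface12.TMem n e M) (hgenb : Interface12.TGenBase n e)
    (c0 : CoeffChart (F₀ := modularFunctionFieldFull M) T.S0)
    (c1 : CoeffChart (F₀ := modularFunctionFieldFull M) T.S1)
    (hs0 : T.S0.s = Interface12.tF M hmem)
    (peel0 : ∀ (P : Place Qb ↥(modularFunctionFieldBar M)) (hP : T.S0.InChart P), T.S0.PeelA P hP)
    (peel1 : ∀ (P : Place Qb ↥(modularFunctionFieldBar M)) (hP : T.S1.InChart P),
      T.S1.PeelA P hP) :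
    SP N ℓ hℓ A := by
  haveI : Fact ℓ.Prime := ⟨hℓ⟩
  have hℓM : ¬ ℓ ∣ M := hM ▸ not_dvd_auxLevel hℓ hℓN
  obtain ⟨h0, h1⟩ := Fermat.Agent.ES.RED.RedInst15.chartInputs_both n e M ℓ hℓM hmem hgenb A hA T
    c0 c1 hs0 peel0 peel1
  refine sp_of_inputs T hM hℓ hℓN hA h0 h1 c0 c1 ?_
  intro _ _
  refine Fermat.Agent.ES.RED.FrobPoles13.frobSemi_smul_tq (kA A) ℓ M n e ?_
  rw [Fermat.Agent.ES.RED.RedInst15.red_sB_eq_tRes n e M ℓ hℓM hmem hgenb A hA T.S0 c0 hs0]
  rfl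

end General

/-! ### B1's deliverable as one proposition -/

/-- **The two-chart model at level `M`** for the Hauptmodul base `(n, e)`: a `TwoCharts` structure
whose charts are coefficientwise with coordinates `t = tF M hmem` (hence `t⁻¹`) and satisfy
(PEEL-a). -/
def Model (n e : ℕ) [NeZero n] (A : ValuationSubring Qb) (M : ℕ) [NeZero M] : Prop :=
  ∃ (hmem : Interface12.TMem n e M) (x : ↥(modularFunctionFieldBar M)) (hx : IsGen Qb x)
    (T : TwoCharts A hx ↥(modularFunctionFieldFullC (kA A) M)),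
    CoeffChart (F₀ := modularFunctionFieldFull M) T.S0 ∧
    CoeffChart (F₀ := modularFunctionFieldFull M) T.S1 ∧
    T.S0.s = Interface12.tF M hmem ∧
    (∀ (P : Place Qb ↥(modularFunctionFieldBar M)) (hP : T.S0.InChart P), T.S0.PeelA P hP) ∧
    (∀ (P : Place Qb ↥(modularFunctionFieldBar M)) (hP : T.S1.InChart P), T.S1.PeelA P hP)

/-- `SP` from a model at the auxiliary level. -/
theorem sp_of_Model (n e : ℕ) [NeZero n] {ℓ N M : ℕ} [NeZero N] [NeZero M]
    (hM : M = auxLevel ℓ N) (hℓ : ℓ.Prime) (hℓN : ¬ ℓ ∣ N) {A : ValuationSubring Qb}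
    (hA : A.LiesOverPrime ℓ) (hgenb : Interface12.TGenBase n e) (hmodel : Model n e A M) :
    SP N ℓ hℓ A := by
  obtain ⟨hmem, x, hx, T, c0, c1, hs0, p0, p1⟩ := hmodel
  exact sp_of_model T n e hM hℓ hℓN hA hmem hgenb c0 c1 hs0 p0 p1

/-- **`sp_of_base`**: `SP N ℓ hℓ A` (`ℓ ∤ N`, `A` over `ℓ`) from the two-chart models at all levels
`M` carrying a Hauptmodul base `(n, e)`, `n ∣ M`, `ℓ ∤ M`. -/
theorem sp_of_base (ℓ N : ℕ) [NeZero N] (hℓ : ℓ.Prime) (hℓN : ¬ ℓ ∣ N)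
    (A : ValuationSubring Qb) (hA : A.LiesOverPrime ℓ)
    (hmodel : ∀ (n e : ℕ) [NeZero n], BaseHyp n e → ∀ (M : ℕ) [NeZero M], n ∣ M → ¬ ℓ ∣ M →
      Model n e A M) :
    SP N ℓ hℓ A := by
  refine Fermat.Agent.ES.TOP.AuxBase8.of_base hℓ (NeZero.ne N) hℓN
    (fun M => M = auxLevel ℓ N → SP N ℓ hℓ A) ?_ rfl
  intro n e _ hb M hM0 hnM _ hℓM hM
  haveI : NeZero M := ⟨hM0⟩
  exact sp_of_Model n e hM hℓ hℓN hA (tGenBase' hb) (hmodel n e hb M hnM hℓM)

end Fermat.Agent.ES.TOP.SPInputs12
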