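/-
Program I (S37), chapter TOP (helper12): **the contract `SPInputs12.Model n e A M` from helper4's
concrete two-chart structure `ModelInst4.twoCharts`**, and the frozen statement S37 from the last
open input `HasLevels` (helper26).

* `model_of_levels` : `Model n e A M` from `hsat0 hsat1` (`LevelSat`) and `hlev0 hlev1` (`HasLevels`);
* `model_of_hasLevels` : the same with `hsat0 hsat1 := LevelSat16.levelSat_t' / levelSat_inv'`;
* `LevelsHyp` : the remaining hypothesis "`HasLevels` for both charts at every level `M` over a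
  Hauptmodul base `(n, e)`, `n ∣ M`, `ℓ ∤ M`, `A` over `ℓ`" as ONE proposition;
* `sp_of_levelsHyp` : `Skeleton8.SP N ℓ hℓ A` from `LevelsHyp`;
* `s37_of_levelsHyp` : the frozen S37 from `LevelsHyp` (`Skeleton8.s37_of_SP` + `FrobFacts12`).
-/
import Mathlib
import Fermat.Agent.ES.TOP.SPInputs12
import Fermat.Agent.ES.RED.ModelInst4
import Fermat.Agent.ES.RED.LevelSat16
import Fermat.Agent.ES.FROB.FrobFacts12

set_option autoImplicit false
set_option synthInstance.maxHeartbeats 400000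
set_option linter.unusedSectionVars false
set_option linter.style.haveILetI false

noncomputable section

open AlgebraicCurve ModularCurve

namespace Fermat.Agent.ES.TOP.ModelOfInst12

open Fermat.Agent.RED.Interface4 Fermat.Agent.RED.BASE Fermat.Agent.RED.BASE.Hauptmodul12
  Fermat.Agent.RED.BASE.Interface12
  Fermat.Agent.ES.RED.ModelInst4 Fermat.Agent.ES.RED.ModelInstGen4
  Fermat.Agent.ES.RED.ChartIntegralA1 Fermat.Agent.ES.RED.LevelSat16
  Fermat.Agent.ES.TOP.SPInputs12 Fermat.Agent.ES.TOP.Skeleton8 Fermat.Agent.X0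

section Model

variable (n e M : ℕ) [NeZero n] [NeZero M] (ℓ : ℕ) [Fact ℓ.Prime] (hℓM : ¬ ℓ ∣ M)
  (hmem : TMem n e M) (hgen : TGenBase n e) (A : ValuationSubring Qbar) (hA : A.LiesOverPrime ℓ)

include hgen in
/-- **`Model n e A M` from the concrete two-chart structure** of `ModelInst4`. -/
theorem model_of_levels
    (hsat0 : LevelSat A M (tF M hmem)) (hsat1 : LevelSat A M (tF M hmem)⁻¹)
    (hlev0 : HasLevels (S0 n e M ℓ hℓM hmem A hA hsat0))
    (hlev1 : HasLevels (S1 n e M ℓ hℓM hmem A hA hsat1)) :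
    Model n e A M :=
  ⟨hmem, tF M hmem, Fermat.Agent.ES.RED.SpecialInv25.isGen_tF n e M hmem,
    twoCharts n e M ℓ hℓM hmem hgen A hA hsat0 hsat1 hlev0 hlev1,
    coeffChart0 n e M ℓ hℓM hmem A hA hsat0, coeffChart1 n e M ℓ hℓM hmem A hA hsat1, rfl,
    peelA0 n e M ℓ hℓM hmem hgen A hA hsat0 hlev0,
    peelA1 n e M ℓ hℓM hmem hgen A hA hsat0 hsat1 hlev1⟩

/-- the same with the saturation hypotheses discharged by `LevelSat16`. -/
theorem model_of_hasLevels
    (hlev0 : HasLevels (S0 n e M ℓ hℓM hmem A hA (levelSat_t' A n e ℓ hℓM hmem hgen hA)))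
    (hlev1 : HasLevels (S1 n e M ℓ hℓM hmem A hA (levelSat_inv' A n e ℓ hℓM hmem hgen hA))) :
    Model n e A M :=
  model_of_levels n e M ℓ hℓM hmem hgen A hA _ _ hlev0 hlev1

end Model

/-- **The remaining hypothesis**: level systems (`ModelInstGen4.HasLevels`) for both charts of the
model at every level `M` over a Hauptmodul base `(n, e)`. -/
def LevelsHyp : Prop :=
  ∀ (n e : ℕ) [NeZero n] (hb : BaseHyp n e) (M : ℕ) [NeZero M] (hnM : n ∣ M) (ℓ : ℕ) [Fact ℓ.Prime]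
    (hℓM : ¬ ℓ ∣ M) (A : ValuationSubring Qbar) (hA : A.LiesOverPrime ℓ),
    HasLevels (S0 n e M ℓ hℓM (tMem_of_dvd hb hnM) A hA
      (levelSat_t' A n e ℓ hℓM (tMem_of_dvd hb hnM) (tGenBase' hb) hA)) ∧
    HasLevels (S1 n e M ℓ hℓM (tMem_of_dvd hb hnM) A hA
      (levelSat_inv' A n e ℓ hℓM (tMem_of_dvd hb hnM) (tGenBase' hb) hA))

/-- `SP N ℓ hℓ A` from `LevelsHyp`. -/
theorem sp_of_levelsHyp (hlev : LevelsHyp) (ℓ N : ℕ) [NeZero N] (hℓ : ℓ.Prime) (hℓN : ¬ ℓ ∣ N)
    (A : ValuationSubring (AlgebraicClosure ℚ)) (hA : A.LiesOverPrime ℓ) : SP N ℓ hℓ A := by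
  haveI : Fact ℓ.Prime := ⟨hℓ⟩
  refine sp_of_base ℓ N hℓ hℓN A hA ?_
  intro n e _ hb M _ hnM hℓM
  exact model_of_hasLevels n e M ℓ hℓM (tMem_of_dvd hb hnM) (tGenBase' hb) A hA
    (hlev n e hb M hnM ℓ hℓM A hA).1 (hlev n e hb M hnM ℓ hℓM A hA).2

/-- **The frozen statement S37 from `LevelsHyp`.** -/
theorem s37_of_levelsHyp (hlev : LevelsHyp) (N p : ℕ) [NeZero N]
    (hcomm : HeckeOperatorsCommuteBar N) :
    letI := heckeModuleBar N
    ∀ (_ : SMulCommClass (AlgebraicClosure ℚ ≃ₐ[ℚ] AlgebraicClosure ℚ) HeckeAlg (JZero N)),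
      SpecializationExists (K := ℚ) (L := AlgebraicClosure ℚ) N p (JZero N) :=
  s37_of_SP N p hcomm (fun ℓ hℓ hℓN A hA => sp_of_levelsHyp hlev ℓ N hℓ hℓN A hA)
    (fun ℓ hℓ A hA => Fermat.Agent.ES.FROB.FrobFacts12.frobFacts ℓ hℓ A hA)

end Fermat.Agent.ES.TOP.ModelOfInst12
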