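/-
Program I (S37), chapter TOP (helper12): **`levelsHyp : ModelOfInst12.LevelsHyp`** — the level
systems (`ModelInstGen4.HasLevels`) of the two charts `ModelInst4.S0 / S1` at every level `M` over a
Hauptmodul base `(n, e)`, through helper22's `LevelsMain22.chartLevels`:

* `baseHyp_cases` : `BaseHyp n e → (n, e) = (4, 8) ∨ (n, e) = (9, 3)`; `exists_cuspExports`;
* `exists_models` : the two-chart models over `A ∩ K` for all large number fields `K`
  (`ModelExplicit26.explicitModelStep_of_targets` + Program H's targets `Targets26`);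
* `redCompat_of_coeffChart` : `LevelsInst22.RedCompat S` from `GaloisInst21.CoeffChart S`;
* `hasLevels_of_coeffChart` : `HasLevels S` for a coefficientwise chart with coordinate `t^{±1}`;
* `levelsHyp`, and hence **`s37`** : the frozen statement S37.
-/
import Mathlib
import Fermat.Agent.ES.TOP.ModelOfInst12
import Fermat.Agent.ES.RED.LevelsMain22
import Fermat.Agent.ES.RED.ModelExplicit26
import Fermat.Agent.ES.RED.L4Inst16
import Fermat.Agent.RED.Targets26
import Fermat.Agent.RED.ModelFinal4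
import Fermat.Agent.RED.CUSP.RankConcrete16

set_option autoImplicit false
set_option synthInstance.maxHeartbeats 400000
set_option linter.unusedSectionVars false
set_option linter.style.haveILetI false

noncomputable section

open AlgebraicCurve ModularCurve HahnSeries
open scoped MatrixGroups

namespace Fermat.Agent.ES.TOP.LevelsHyp12

open Fermat.Agent.RED.Interface4 Fermat.Agent.RED.BASE Fermat.Agent.RED.BASE.Hauptmodul12
  Fermat.Agent.RED.BASE.Interface12 Fermat.Agent.RED.BASE.MainCusp12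
  Fermat.Agent.RED.BASE.EtaQuot12
  Fermat.Agent.ES.RED.ModelInst4 Fermat.Agent.ES.RED.ModelInstGen4
  Fermat.Agent.ES.RED.Contract8 Fermat.Agent.ES.RED.LevelContract22
  Fermat.Agent.ES.RED.LevelsInst22 Fermat.Agent.ES.RED.LevelsMain22
  Fermat.Agent.ES.TOP.ModelOfInst12 Fermat.Agent.X0 Fermat.Agent.X0.FF
  Fermat.Agent.RED.DESC.PlaceExtend27 Fermat.Agent.RED.DESC Fermat.Agent.RED.DESC.NumberFieldDVR27
  Fermat.Agent.RED.PUR.ChartGeneric22 Fermat.Agent.RED.NumInst4 Fermat.Agent.RED.PUR.GaussGen8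
  Fermat.Agent.RED.PUR.GaussBridge10 Fermat.Agent.RED.CORE.CoreIface24
  Fermat.Agent.RED.ModelTargets4

attribute [local instance] Fermat.Agent.ES.RED.LevelsInst22.algebraAKFK

/-- the two Hauptmodul bases. -/
theorem baseHyp_cases {n e : ℕ} (hb : BaseHyp n e) : (n = 4 ∧ e = 8) ∨ (n = 9 ∧ e = 3) := by
  have hexp := hb.exp
  rcases hb.four_or_nine with h4 | h9
  · have h2 : 2 ∣ n := dvd_trans (by norm_num) h4
    rcases hb.sq 2 h2 with h | h | h
    · omega
    · omega
    · have hn : n = 4 := by omega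
      subst hn
      exact Or.inl ⟨rfl, by omega⟩
  · have h3 : 3 ∣ n := dvd_trans (by norm_num) h9
    rcases hb.sq 3 h3 with h | h | h
    · omega
    · omega
    · have hn : n = 9 := by omega
      subst hn
      exact Or.inr ⟨rfl, by omega⟩

/-- the cusp exports at level `M` for a base `(n, e)`. -/
theorem exists_cuspExports {n e : ℕ} [NeZero n] (hb : BaseHyp n e) (M : ℕ) [NeZero M]
    (hnM : n ∣ M) : ∃ cv : SL(2, ℤ) → Option Kbar, CuspExports n e M cv := by
  rcases baseHyp_cases hb with ⟨rfl, rfl⟩ | ⟨rfl, rfl⟩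
  · exact ⟨_, cuspExports_four M hnM⟩
  · exact ⟨_, cuspExports_nine M hnM⟩

section Models

variable {n e : ℕ} [NeZero n] (hb : BaseHyp n e) (M : ℕ) [NeZero M] (hnM : n ∣ M)
  (ℓ : ℕ) [Fact ℓ.Prime] (hℓM : ¬ ℓ ∣ M) (A : ValuationSubring Qbar) (hA : A.LiesOverPrime ℓ)

include hb hnM hℓM hA in
/-- **The two-chart models over `A ∩ K`** for all large number fields `K`, in the shape of
`LevelsMain22.eventuallyGood_of_models`. -/
theorem exists_models :
    ∃ K₀ : IntermediateField ℚ Qbar, FiniteDimensional ℚ K₀ ∧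
      ∀ K : IntermediateField ℚ Qbar, FiniteDimensional ℚ K → K₀ ≤ K →
        ∃ (ϖ : ↥(AK A K)) (hu : IsUnif (AK A K) ϖ) (t : ↥(FK M K)),
          baseChangeHom M K t = tF M (tMem_of_dvd hb hnM) ∧
          TwoChartModel ↥(AK A K) K ↥(FK M K) ϖ t (chart ↥(AK A K) t) (chart ↥(AK A K) t⁻¹)
            (OvK A K M hu) := by
  obtain ⟨cv, hcv⟩ := exists_cuspExports hb M hnM
  have hT := Fermat.Agent.RED.ModelFinal4.tTarget (n := n) (e := e) M (tMem_of_dvd hb hnM)
  obtain ⟨K₀, hfd₀, H⟩ := Fermat.Agent.ES.RED.ModelExplicit26.explicitModelStep_of_targets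
    (n := n) (e := e) hℓM hA cv hT
    (Fermat.Agent.RED.ModelFinal4.jTarget (tGenBase' hb))
    (Fermat.Agent.RED.Targets26.offTarget hb M hnM ℓ hℓM A hA cv hcv)
    (Fermat.Agent.RED.Targets26.overTarget hb M hnM ℓ hℓM A hA cv hcv)
    (Fermat.Agent.RED.Targets26.infTarget hb M hnM ℓ hℓM A hA cv hcv)
  obtain ⟨K₁, hfd₁, hT'⟩ := hT
  haveI := hfd₀
  haveI := hfd₁
  refine ⟨K₀ ⊔ K₁, inferInstance, fun K hK hle => ?_⟩
  obtain ⟨hdvr, Hm⟩ := H K hK (le_sup_left.trans hle)
  haveI := hdvr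
  obtain ⟨ϖ, hϖ⟩ := IsDiscreteValuationRing.exists_irreducible ↥(AK A K)
  have hu : IsUnif (AK A K) ϖ := isUnif_of_irreducible (AK A K) hϖ
  refine ⟨ϖ, hu, ⟨tq K n e, hT' K hK (le_sup_right.trans hle)⟩, ?_, ?_⟩
  · exact Fermat.Agent.RED.CUSP.RankConcrete16.baseChangeHom_eq_tF M K (tMem_of_dvd hb hnM) _ rfl
  · exact Hm ϖ hϖ hu _ rfl

end Models

section Chart

variable {A : ValuationSubring Qbar} {M : ℕ} [NeZero M] {x : ↥(Fbar M)} {hx : IsGen Qbar x}
  (S : ChartSpec A hx ↥(modularFunctionFieldFullC (kA A) M))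

/-- `RedCompat` from `CoeffChart`. -/
theorem redCompat_of_coeffChart
    (hS : Fermat.Agent.ES.RED.GaloisInst21.CoeffChart (F₀ := modularFunctionFieldFull M) S) :
    RedCompat S := fun b => by
  obtain ⟨Y, hY⟩ := hS.exists_series b
  exact ⟨Y, hY, hS.red_eq b Y hY⟩

/-- **`HasLevels S`** for a coefficientwise chart with coordinate `t^{±1}`, given good levels at all
large number fields. -/
theorem hasLevels_of_coeffChart
    (hS : Fermat.Agent.ES.RED.GaloisInst21.CoeffChart (F₀ := modularFunctionFieldFull M) S)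
    (n e : ℕ) [NeZero n] (ℓ : ℕ) [Fact ℓ.Prime] (hℓM : ¬ ℓ ∣ M)
    (hmem : TMem n e M) (hgen : TGenBase n e) (hA : A.LiesOverPrime ℓ)
    (hs : S.s = tF M hmem ∨ S.s = (tF M hmem)⁻¹) (hgood : EventuallyGood A M S.s) :
    HasLevels S := by
  intro P hP
  have hℓ : ℓ ≠ 0 := (Fact.out : ℓ.Prime).ne_zero
  exact ⟨Levels S, Bk S, fun i => inferInstance, levelHom S (fun b h => (hS.mem_iff b).2 h), pik S,
    chartLevels hℓ hA hS.mem_iff (redCompat_of_coeffChart S hS)
      (Fermat.Agent.ES.RED.L4Inst16.chartLevels_L4_of_coeffChart S hS n e ℓ hℓM hmem hgen hA hs)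
      hgood P hP⟩

end Chart

/-- **`LevelsHyp`**: the level systems of both charts of the model, at every level. -/
theorem levelsHyp : LevelsHyp := by
  intro n e _ hb M _ hnM ℓ _ hℓM A hA
  obtain ⟨hg0, hg1⟩ := eventuallyGood_of_models A M (tF M (tMem_of_dvd hb hnM))
    (exists_models hb M hnM ℓ hℓM A hA)
  constructor
  · exact hasLevels_of_coeffChart _ (coeffChart0 n e M ℓ hℓM (tMem_of_dvd hb hnM) A hA _) n e ℓ hℓM
      (tMem_of_dvd hb hnM) (tGenBase' hb) hA (Or.inl rfl) hg0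
  · exact hasLevels_of_coeffChart _ (coeffChart1 n e M ℓ hℓM (tMem_of_dvd hb hnM) A hA _) n e ℓ hℓM
      (tMem_of_dvd hb hnM) (tGenBase' hb) hA (Or.inr rfl) hg1

/-- **The frozen statement S37.** -/
theorem s37 (N p : ℕ) [NeZero N] (hcomm : HeckeOperatorsCommuteBar N) :
    letI := heckeModuleBar N
    ∀ (_ : SMulCommClass (AlgebraicClosure ℚ ≃ₐ[ℚ] AlgebraicClosure ℚ) HeckeAlg (JZero N)),
      SpecializationExists (K := ℚ) (L := AlgebraicClosure ℚ) N p (JZero N) :=
  s37_of_levelsHyp levelsHyp N p hcomm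

end Fermat.Agent.ES.TOP.LevelsHyp12
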