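/-
Program I → J (helper12): **the Galois module `J₀(N)[m]` at a good prime**, extracted from the
contract `Skeleton8.SP` (now unconditional: `ModelOfInst12.sp_of_levelsHyp LevelsHyp12.levelsHyp`).

For `ℓ` prime, `ℓ ∤ N`, `A` a valuation subring of `ℚ̄` over `ℓ`, and `x ∈ J₀(N)(ℚ̄)` with `m • x = 0`,
`ℓ ∤ m`:
* `inertia_smul_eq` : `τ • x = x` for every `τ` in the inertia group `I_A` (Néron–Ogg–Shafarevich,
  easy direction: `J₀(N)[m]` is unramified at `ℓ`);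
* `frobenius_relation` : `σ • σ • x - T_ℓ (σ • x) + ℓ • x = 0` for every Frobenius element `σ` at `A`
  (Eichler–Shimura congruence relation on `J₀(N)[m]`).
-/
import Mathlib
import Fermat.Agent.ES.TOP.LevelsHyp12

set_option autoImplicit false
set_option synthInstance.maxHeartbeats 400000

noncomputable section

open AlgebraicCurve ModularCurve

namespace Fermat.Agent.ES.TOP.TorsionGalois12

open Fermat.Agent.ES.TOP.Skeleton8

/-- `ℚbar`. -/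
local notation "Qb" => AlgebraicClosure ℚ

/-- **(SP), unconditional.** -/
theorem sp (N ℓ : ℕ) [NeZero N] (hℓ : ℓ.Prime) (hℓN : ¬ ℓ ∣ N) (A : ValuationSubring Qb)
    (hA : A.LiesOverPrime ℓ) : SP N ℓ hℓ A :=
  Fermat.Agent.ES.TOP.ModelOfInst12.sp_of_levelsHyp Fermat.Agent.ES.TOP.LevelsHyp12.levelsHyp
    ℓ N hℓ hℓN A hA

section Abstract

variable {Γ J G : Type*} [Monoid Γ] [AddCommGroup J] [DistribMulAction Γ J] [AddCommGroup G]

theorem smul_nsmul_comm (σ : Γ) (m : ℕ) (x : J) : σ • (m • x) = m • (σ • x) :=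
  map_nsmul (DistribSMul.toAddMonoidHom J σ) m x

/-- abstract form of `inertia_smul_eq`. -/
theorem smul_eq_of_injOn_torsion (Φ : J →+ G) (m : ℕ)
    (h3 : ∀ x : J, m • x = 0 → Φ x = 0 → x = 0) (τ : Γ) (x : J) (hx : m • x = 0)
    (h1 : Φ (τ • x) = Φ x) : τ • x = x := by
  rw [← sub_eq_zero]
  refine h3 (τ • x - x) ?_ ?_
  · rw [nsmul_sub, ← smul_nsmul_comm, hx, smul_zero, sub_self]
  · rw [map_sub, h1, sub_self]

/-- abstract form of `frobenius_relation`. -/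
theorem relation_of_injOn_torsion (Φ : J →+ G) (m ℓ : ℕ)
    (h3 : ∀ x : J, m • x = 0 → Φ x = 0 → x = 0) (T : J → J)
    (hT : ∀ y : J, m • y = 0 → m • T y = 0) (σ : Γ) (x : J) (hx : m • x = 0)
    (h2 : Φ (σ • σ • x - T (σ • x) + ℓ • x) = 0) : σ • σ • x - T (σ • x) + ℓ • x = 0 := by
  refine h3 _ ?_ h2
  have e1 : m • (σ • x) = 0 := by rw [← smul_nsmul_comm, hx, smul_zero]
  have e2 : m • (σ • σ • x) = 0 := by rw [← smul_nsmul_comm, e1, smul_zero]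
  have e3 : m • (ℓ • x) = 0 := by rw [smul_comm m ℓ x, hx, smul_zero]
  rw [nsmul_add, nsmul_sub, e2, hT _ e1, e3, sub_zero, add_zero]

end Abstract

variable {N ℓ : ℕ} [NeZero N]

/-- **`J₀(N)[m]` is unramified at `ℓ ∤ N m`.** -/
theorem inertia_smul_eq (hℓ : ℓ.Prime) (hℓN : ¬ ℓ ∣ N) {A : ValuationSubring Qb}
    (hA : A.LiesOverPrime ℓ) {m : ℕ} (hm : ¬ ℓ ∣ m) {x : JZero N} (hx : m • x = 0)
    {τ : Qb ≃ₐ[ℚ] Qb} (hτ : τ ∈ A.inertiaSubgroupIn ℚ) : τ • x = x := by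
  obtain ⟨G, _, Φ, h1, -, h3⟩ := sp N ℓ hℓ hℓN A hA
  exact smul_eq_of_injOn_torsion Φ m (fun y hy hΦ => h3 m y hm hy hΦ) τ x hx (h1 τ hτ x)

/-- **The Eichler–Shimura congruence relation on `J₀(N)[m]`**, `ℓ ∤ N m`. -/
theorem frobenius_relation (hℓ : ℓ.Prime) (hℓN : ¬ ℓ ∣ N) {A : ValuationSubring Qb}
    (hA : A.LiesOverPrime ℓ) {m : ℕ} (hm : ¬ ℓ ∣ m) {x : JZero N} (hx : m • x = 0)
    {σ : Qb ≃ₐ[ℚ] Qb} (hσ : A.IsFrobeniusAt σ ℓ) :
    σ • σ • x - heckeOperatorBar N ⟨ℓ, hℓ⟩ (σ • x) + ℓ • x = 0 := by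
  obtain ⟨G, _, Φ, -, h2, h3⟩ := sp N ℓ hℓ hℓN A hA
  refine relation_of_injOn_torsion Φ m ℓ (fun y hy hΦ => h3 m y hm hy hΦ)
    (fun y => heckeOperatorBar N ⟨ℓ, hℓ⟩ y) (fun y hy => ?_) σ x hx (h2 σ hσ x)
  rw [← map_nsmul, hy, map_zero]

end Fermat.Agent.ES.TOP.TorsionGalois12
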