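/-
Program I (S37), chapter ES/TOP — helper4 (B1 integrator).  **`ModelOfInst12.LevelsHyp` holds**, hence
the frozen statement S37 (`s37`).

* `four_eight_or_nine_three` : `BaseHyp n e → (n = 4 ∧ e = 8) ∨ (n = 9 ∧ e = 3)`;
* `exists_cuspExports`       : `BaseHyp n e → n ∣ M → ∃ cv, CuspExports n e M cv`;
* `levelsHyp`                : `ModelOfInst12.LevelsHyp`;
* `s37`                      : the frozen S37.
-/
import Mathlib
import Fermat.Agent.ES.TOP.ModelOfInst12
import Fermat.Agent.ES.RED.ModelInstFinal4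

set_option autoImplicit false
set_option linter.unusedSectionVars false
set_option linter.style.haveILetI false

open AlgebraicCurve ModularCurve
open scoped MatrixGroups

namespace Fermat.Agent.ES.TOP.LevelsHypFinal4

open Fermat.Agent.RED.Interface4 Fermat.Agent.RED.BASE Fermat.Agent.RED.BASE.Hauptmodul12
  Fermat.Agent.RED.BASE.Interface12 Fermat.Agent.RED.BASE.MainCusp12
  Fermat.Agent.ES.RED.ModelInstLevels4 Fermat.Agent.ES.RED.ModelInstFinal4
  Fermat.Agent.ES.TOP.ModelOfInst12 Fermat.Agent.X0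

/-- The only Hauptmodul data: `(4, 8)` and `(9, 3)`. -/
theorem four_eight_or_nine_three {n e : ℕ} (hb : BaseHyp n e) :
    (n = 4 ∧ e = 8) ∨ (n = 9 ∧ e = 3) := by
  have h2 := hb.two_le
  have hexp := hb.exp
  have hdvd : n - 1 ∣ 24 := ⟨e, by rw [mul_comm]; exact hexp.symm⟩
  have hle : n - 1 ≤ 24 := Nat.le_of_dvd (by norm_num) hdvd
  have hn : n ≤ 25 := by omega
  have h49 := hb.four_or_nine
  interval_cases n <;> omega

/-- Cusp exports at every level `M` over a Hauptmodul base. -/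
theorem exists_cuspExports {n e : ℕ} [NeZero n] (hb : BaseHyp n e) (M : ℕ) [NeZero M]
    (hnM : n ∣ M) : ∃ cv : SL(2, ℤ) → Option Kbar, CuspExports n e M cv := by
  rcases four_eight_or_nine_three hb with ⟨rfl, rfl⟩ | ⟨rfl, rfl⟩
  · exact ⟨_, cuspExports_four M hnM⟩
  · exact ⟨_, cuspExports_nine M hnM⟩

/-- **`LevelsHyp`**: level systems for both charts of the model, at every level over a Hauptmodul
base. -/
theorem levelsHyp : LevelsHyp := by
  intro n e _ hb M _ hnM ℓ _ hℓM A hA
  obtain ⟨cv, hcv⟩ := exists_cuspExports hb M hnM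
  have hmodel := modelAt n e M ℓ hℓM (tMem_of_dvd hb hnM) (tGenBase' hb) A hA hb hnM cv hcv
  exact ⟨hasLevels0 n e M ℓ hℓM (tMem_of_dvd hb hnM) (tGenBase' hb) A hA _ hmodel
      (levelAtHyp n e M A),
    hasLevels1 n e M ℓ hℓM (tMem_of_dvd hb hnM) (tGenBase' hb) A hA _ hmodel
      (levelAtHyp n e M A)⟩

/-- **The frozen statement S37.** -/
theorem s37 (N p : ℕ) [NeZero N] (hcomm : HeckeOperatorsCommuteBar N) :
    letI := heckeModuleBar N
    ∀ (_ : SMulCommClass (AlgebraicClosure ℚ ≃ₐ[ℚ] AlgebraicClosure ℚ) HeckeAlg (JZero N)),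
      SpecializationExists (K := ℚ) (L := AlgebraicClosure ℚ) N p (JZero N) :=
  s37_of_levelsHyp levelsHyp N p hcomm

end Fermat.Agent.ES.TOP.LevelsHypFinal4
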