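/-
Program I (S37), chapter TOP (helper12): the contract `Skeleton8.SP N ℓ hℓ A` from `(Φ1)`, `(Φ2)` for
THE homomorphism `Φ := red ∘ π^*` (`M := auxLevel ℓ N`, `red := reductionPic0Along r hr hgen`,
`π^* := levelPullback (dvd_auxLevel ℓ N)`); `(Φ3)` is `PhiThree12.phi_three` with the core lemma
`S18Exports4.clBar_aux` (Program H) — unconditional.
-/
import Mathlib
import Fermat.Agent.ES.TOP.Skeleton8
import Fermat.Agent.ES.RED.PhiThree12
import Fermat.Agent.ES.RED.GaussUnit25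
import Fermat.Agent.RED.S18Exports4

set_option autoImplicit false
set_option synthInstance.maxHeartbeats 400000

noncomputable section

open AlgebraicCurve ModularCurve IntermediateField

namespace Fermat.Agent.ES.TOP.SPMain12

open Fermat.Agent.ES.HECKE.LevelPullback12 Fermat.Agent.RED.Interface4 Fermat.Agent.RED.LVL
  Fermat.Agent.ES.TOP.Skeleton8

/-- **The homomorphism `Φ = red ∘ π^* : J₀(N) →+ Pic⁰(F̃_M)`**, `M = auxLevel ℓ N`, for an explicit
place reduction map `r` at level `M`. -/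
def Phi (ℓ N : ℕ) [NeZero N] (A : ValuationSubring (AlgebraicClosure ℚ))
    (r : Place (AlgebraicClosure ℚ) (modularFunctionFieldBar (auxLevel ℓ N)) →
      Place (IsLocalRing.ResidueField A)
        (modularFunctionFieldFullC (IsLocalRing.ResidueField A) (auxLevel ℓ N)))
    (hr : IsPlaceReductionAlong A (IsLocalRing.residue A) (auxLevel ℓ N) r)
    (hgen : PrincipalGeneratedByIntegral A (IsLocalRing.residue A) (auxLevel ℓ N)) :
    JZero N →+ JZeroC (IsLocalRing.ResidueField A) (auxLevel ℓ N) :=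
  haveI := LevelDegree17.neZero_auxLevel ℓ N
  (reductionPic0Along r hr hgen).comp (levelPullback (dvd_auxLevel ℓ N))

theorem Phi_apply (ℓ N : ℕ) [NeZero N] (A : ValuationSubring (AlgebraicClosure ℚ))
    (r : Place (AlgebraicClosure ℚ) (modularFunctionFieldBar (auxLevel ℓ N)) →
      Place (IsLocalRing.ResidueField A)
        (modularFunctionFieldFullC (IsLocalRing.ResidueField A) (auxLevel ℓ N)))
    (hr : IsPlaceReductionAlong A (IsLocalRing.residue A) (auxLevel ℓ N) r)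
    (hgen : PrincipalGeneratedByIntegral A (IsLocalRing.residue A) (auxLevel ℓ N)) (x : JZero N) :
    Phi ℓ N A r hr hgen x =
      (haveI := LevelDegree17.neZero_auxLevel ℓ N
       reductionPic0Along r hr hgen (levelPullback (dvd_auxLevel ℓ N) x)) :=
  rfl

/-- `(Φ3)` for `Φ`, unconditional (Program H's core lemma at the auxiliary level). -/
theorem Phi_three (ℓ N : ℕ) [NeZero N] (hℓ : ℓ.Prime) (hℓN : ¬ ℓ ∣ N)
    (A : ValuationSubring (AlgebraicClosure ℚ)) (hA : A.LiesOverPrime ℓ)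
    (r : Place (AlgebraicClosure ℚ) (modularFunctionFieldBar (auxLevel ℓ N)) →
      Place (IsLocalRing.ResidueField A)
        (modularFunctionFieldFullC (IsLocalRing.ResidueField A) (auxLevel ℓ N)))
    (hr : IsPlaceReductionAlong A (IsLocalRing.residue A) (auxLevel ℓ N) r)
    (hgen : PrincipalGeneratedByIntegral A (IsLocalRing.residue A) (auxLevel ℓ N))
    (m : ℕ) (x : JZero N) (hm : ¬ ℓ ∣ m) (hmx : m • x = 0) (hx : Phi ℓ N A r hr hgen x = 0) :
    x = 0 := by
  haveI : Fact ℓ.Prime := ⟨hℓ⟩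
  exact Fermat.Agent.ES.RED.PhiThree12.phi_three A
    (Fermat.Agent.RED.S18Exports4.clBar_aux N ℓ hℓN A hA) r hr hgen m hm x hmx hx

/-- **`SP` from `(Φ1)` and `(Φ2)`** for `Φ = red ∘ π^*`. -/
theorem sp_of_phi (ℓ N : ℕ) [NeZero N] (hℓ : ℓ.Prime) (hℓN : ¬ ℓ ∣ N)
    (A : ValuationSubring (AlgebraicClosure ℚ)) (hA : A.LiesOverPrime ℓ)
    (r : Place (AlgebraicClosure ℚ) (modularFunctionFieldBar (auxLevel ℓ N)) →
      Place (IsLocalRing.ResidueField A)
        (modularFunctionFieldFullC (IsLocalRing.ResidueField A) (auxLevel ℓ N)))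
    (hr : IsPlaceReductionAlong A (IsLocalRing.residue A) (auxLevel ℓ N) r)
    (hgen : PrincipalGeneratedByIntegral A (IsLocalRing.residue A) (auxLevel ℓ N))
    (h1 : ∀ τ ∈ A.inertiaSubgroupIn ℚ, ∀ x : JZero N,
      Phi ℓ N A r hr hgen (τ • x) = Phi ℓ N A r hr hgen x)
    (h2 : ∀ σ : AlgebraicClosure ℚ ≃ₐ[ℚ] AlgebraicClosure ℚ, A.IsFrobeniusAt σ ℓ →
      ∀ x : JZero N,
        Phi ℓ N A r hr hgen (σ • σ • x - heckeOperatorBar N ⟨ℓ, hℓ⟩ (σ • x) + ℓ • x) = 0) :
    SP N ℓ hℓ A :=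
  ⟨JZeroC (IsLocalRing.ResidueField A) (auxLevel ℓ N), inferInstance, Phi ℓ N A r hr hgen, h1, h2,
    fun m x hm hmx hx => Phi_three ℓ N hℓ hℓN A hA r hr hgen m x hm hmx hx⟩

/-- `(Rgen)` at the auxiliary level (helper25's `GaussUnit25`). -/
theorem hgen_aux (ℓ N : ℕ) [NeZero N] (hℓ : ℓ.Prime) (hℓN : ¬ ℓ ∣ N)
    (A : ValuationSubring (AlgebraicClosure ℚ)) (hA : A.LiesOverPrime ℓ) :
    PrincipalGeneratedByIntegral A (IsLocalRing.residue A) (auxLevel ℓ N) :=
  haveI : Fact ℓ.Prime := ⟨hℓ⟩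
  haveI := LevelDegree17.neZero_auxLevel ℓ N
  Fermat.Agent.ES.RED.GaussUnit25.principalGeneratedByIntegral A ℓ hA (auxLevel ℓ N)
    (not_dvd_auxLevel hℓ hℓN)

end Fermat.Agent.ES.TOP.SPMain12
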