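/-
Program I (S37), chapter TOP, helper8 (integration): the contract `Skeleton8.SP N ℓ hℓ A` from a
two-chart model `T : TwoCharts A hx F~` at a level `M` (`N ∣ M`, `ℓ ∤ M`, Hauptmodul base `(n, e)`)
whose two charts are coefficientwise (`GaloisInst21.CoeffChart`), have coordinate `t = tF M hmem`
(resp. `t⁻¹`) and satisfy (PEEL-a).  Everything else is assembled here:

* `hr`  : `RedInst15.isPlaceReductionModL_main`           (R2),
* `hgen`: `GaussUnit25.principalGeneratedByIntegral`      (Rgen),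
* `hI`, `hFr` : `GaloisInst21.r_smul_of_mem_inertia'`, `r_smul_of_isFrobeniusAt'`   (R3),
* `hES` : `EsDivFinal24.es_div_final`                      (ES-div),
* `hH5` : `LevelTop20.levelPullback_heckeOperatorAlong`    (H5),
* `h3`  : `RedInj12.red_injective_of_CLBar` + the level half   (Φ3),
* `PhiOneTwo21.sp_of_phi_div`.
-/
import Mathlib
import Fermat.Agent.ES.TOP.PhiOneTwo21
import Fermat.Agent.ES.TOP.SPMain12
import Fermat.Agent.ES.KRON.EsDivFinal24
import Fermat.Agent.ES.RED.RedInst15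
import Fermat.Agent.ES.RED.GaloisInst21
import Fermat.Agent.ES.RED.FrobPoles13
import Fermat.Agent.ES.RED.ChartSpecOfChart18
import Fermat.Agent.ES.HECKE.LevelTop20
import Fermat.Agent.ES.HECKE.AlongDegree25

set_option autoImplicit false
set_option synthInstance.maxHeartbeats 400000

noncomputable section

open AlgebraicCurve ModularCurve IntermediateField

namespace Fermat.Agent.ES.TOP.SPOfModel8

open Fermat.Agent.X0 Fermat.Agent.X0.FF Fermat.Agent.ES.HECKE.LevelPullback12 Fermat.Agent.RED.Interface4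
  Fermat.Agent.RED.BASE Fermat.Agent.ES.RED.Contract8 Fermat.Agent.ES.RED.TwoCharts8
  Fermat.Agent.ES.RED.GaloisInst21 Fermat.Agent.ES.HECKE Fermat.Agent.ES.RED
  Fermat.Agent.ES.KRON

/-- **(SP) from a two-chart model at level `M`.** -/
theorem sp_of_twoCharts {N M : ℕ} [NeZero N] [NeZero M] (h : N ∣ M) {ℓ : ℕ} (hℓ : ℓ.Prime)
    (hℓM : ¬ ℓ ∣ M) (A : ValuationSubring Qbar) (hA : A.LiesOverPrime ℓ)
    (n e : ℕ) [NeZero n] (hmem : Interface12.TMem n e M) (hgenB : Interface12.TGenBase n e)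
    {x : X0.FF M} {hx : IsGen Qbar x}
    (T : TwoCharts A hx ↥(modularFunctionFieldFullC (kA A) M))
    (hS0 : CoeffChart (F₀ := modularFunctionFieldFull M) T.S0)
    (hS1 : CoeffChart (F₀ := modularFunctionFieldFull M) T.S1)
    (hs0 : T.S0.s = Interface12.tF M hmem)
    (peel0 : ∀ (P : Place Qbar (X0.FF M)) (hP : T.S0.InChart P), T.S0.PeelA P hP)
    (peel1 : ∀ (P : Place Qbar (X0.FF M)) (hP : T.S1.InChart P), T.S1.PeelA P hP)
    (hCL : CLBar ℓ M A)
    (hlev : ∀ m : ℕ, 0 < m → ∀ x : JZero N, m • x = 0 → levelPullback h x = 0 → x = 0) :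
    Skeleton8.SP N ℓ hℓ A := by
  have : Fact ℓ.Prime := ⟨hℓ⟩
  have : NeZero ℓ := ⟨hℓ.ne_zero⟩
  have : IsAlgClosed (kA A) := KronInst10.isAlgClosed_residueField A
  have : CharP (kA A) ℓ := KronInst10.charP_residueField A hℓ hA
  have : ExpChar (kA A) ℓ := ExpChar.prime hℓ
  have : HasPrincipalDivisors Qbar (laurentBaseChange Qbar (modularFunctionFieldFull (M * ℓ))) :=
    Fermat.Agent.RED.TOP.FbarFacts20.hasPrincipalDivisors_bar (M * ℓ)
  have hin := RedInst15.chartInputs_both n e M ℓ hℓM hmem hgenB A hA T hS0 hS1 hs0 peel0 peel1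
  have hr : IsPlaceReductionModL A M T.r :=
    RedInst15.isPlaceReductionModL_main n e M ℓ hℓM hmem hgenB A hA T hS0 hS1 hs0 peel0 peel1
  have hgen : PrincipalGeneratedByIntegral A (IsLocalRing.residue A) M :=
    GaussUnit25.principalGeneratedByIntegral A ℓ hA M hℓM
  have hα : HeckeAlphaBarIntegral Qbar M ℓ := AlongDegree25.heckeAlphaBarIntegral Qbar M ℓ hℓ hℓM
  have hβ : HeckeBetaBarIntegral Qbar M ℓ := AlongDegree25.heckeBetaBarIntegral Qbar M ℓ hℓ hℓM
  have hfix : FrobPlace13.frobSemi (kA A) ℓ M • T.S0.red T.S0.sB = T.S0.red T.S0.sB := by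
    refine FrobPoles13.frobSemi_smul_tq (kA A) ℓ M n e ?_
    rw [RedInst15.red_sB_eq_tRes n e M ℓ hℓM hmem hgenB A hA T.S0 hS0 hs0]
    rfl
  refine PhiOneTwo21.sp_of_phi_div h T.r hr hgen hℓ hℓM hα hβ ?_ ?_ ?_ ?_ ?_
  · intro τ hτ P
    exact r_smul_of_mem_inertia' T hin.1.gent hS0 hS1 hτ P
  · intro σ hσ P
    exact r_smul_of_isFrobeniusAt' T hin.1.gent hS0 hS1 hσ P
  · intro D
    exact EsDivFinal24.es_div_final M ℓ A T hin.1 hin.2 hℓM hα hβ
      (InputsMain19.fundamentalIdentityAlong_beta M ℓ hℓ hℓM)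
      (AlongDegree25.finiteAlong_alpha Qbar M ℓ hℓ hℓM)
      (InputsFinal15.normFormulaAlong_alpha M ℓ hℓ hℓM)
      (fun P hs b hb => ChartSpecOfChart18.mem_place_of_mem_chart' A T.S0.s P hs
        ((hS0.mem_iff b).1 hb))
      (fun P hs b hb => ChartSpecOfChart18.mem_place_of_mem_chart' A T.S1.s P hs
        ((hS1.mem_iff b).1 hb))
      hfix D
  · intro x
    exact LevelTop20.levelPullback_heckeOperatorAlong h hℓ hℓM x
  · intro m x hm hmx hx
    have hm0 : 0 < m := Nat.pos_of_ne_zero (fun h0 => hm (h0 ▸ dvd_zero ℓ))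
    refine hlev m hm0 x hmx ?_
    refine RedInj12.red_injective_of_CLBar M A hCL T.r hr hgen m hm (levelPullback h x) ?_ hx
    rw [← map_nsmul, hmx, map_zero]

end Fermat.Agent.ES.TOP.SPOfModel8
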