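/-
Program I (S37), chapter TOP, helper8 (integration): the contract `Skeleton8.SP N ℓ hℓ A` at the
auxiliary level `M = auxLevel ℓ N`, and the frozen statement S37, from the single remaining input

  `ModelAt A ℓ` : at every level `M` carrying a Hauptmodul base `(n, e)`, `n ∣ M`, `ℓ ∤ M`, there is a
  two-chart model `T : TwoCharts A hx F~` whose charts are coefficientwise with coordinates
  `t = tF M _`, `t⁻¹`, satisfying (PEEL-a).

(`SPOfModel8.sp_of_twoCharts` + Program H's `clBar_aux` + the level half of (Φ3).)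
-/
import Mathlib
import Fermat.Agent.ES.TOP.SPOfModel8
import Fermat.Agent.ES.TOP.AuxBase8
import Fermat.Agent.ES.FROB.FrobFacts12
import Fermat.Agent.RED.S18Exports4

set_option autoImplicit false
set_option synthInstance.maxHeartbeats 400000

noncomputable section

open AlgebraicCurve ModularCurve IntermediateField

namespace Fermat.Agent.ES.TOP.SPAux8

open Fermat.Agent.X0 Fermat.Agent.X0.FF Fermat.Agent.ES.HECKE.LevelPullback12
  Fermat.Agent.RED.Interface4 Fermat.Agent.RED.BASE Fermat.Agent.RED.BASE.Hauptmodul12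
  Fermat.Agent.RED.BASE.MainCusp12
  Fermat.Agent.ES.RED.Contract8 Fermat.Agent.ES.RED.TwoCharts8
  Fermat.Agent.ES.RED.GaloisInst21 Fermat.Agent.ES.RED Fermat.Agent.RED.LVL

/-- **The model input** (chapter RED, B1): two-chart models at every level with a Hauptmodul base. -/
def ModelAt (A : ValuationSubring Qbar) (ℓ : ℕ) : Prop :=
  ∀ (n e : ℕ) [NeZero n] (hb : BaseHyp n e) (M : ℕ) [NeZero M] (hnM : n ∣ M), ¬ ℓ ∣ M →
    ∃ (x : X0.FF M) (hx : IsGen Qbar x)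
      (T : TwoCharts A hx ↥(modularFunctionFieldFullC (kA A) M)),
      CoeffChart (F₀ := modularFunctionFieldFull M) T.S0 ∧
      CoeffChart (F₀ := modularFunctionFieldFull M) T.S1 ∧
      T.S0.s = Interface12.tF M (tMem_of_dvd hb hnM) ∧
      (∀ (P : Place Qbar (X0.FF M)) (hP : T.S0.InChart P), T.S0.PeelA P hP) ∧
      (∀ (P : Place Qbar (X0.FF M)) (hP : T.S1.InChart P), T.S1.PeelA P hP)

/-- (SP) at a level `M` with a Hauptmodul base, from the model input. -/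
theorem sp_of_modelAt {N M : ℕ} [NeZero N] [NeZero M] (h : N ∣ M) {ℓ : ℕ} (hℓ : ℓ.Prime)
    (hℓM : ¬ ℓ ∣ M) (A : ValuationSubring Qbar) (hA : A.LiesOverPrime ℓ)
    (hmodel : ModelAt A ℓ)
    (n e : ℕ) [NeZero n] (hb : BaseHyp n e) (hnM : n ∣ M)
    (hCL : CLBar ℓ M A)
    (hlev : ∀ m : ℕ, 0 < m → ∀ x : JZero N, m • x = 0 → levelPullback h x = 0 → x = 0) :
    Skeleton8.SP N ℓ hℓ A := by
  obtain ⟨x, hx, T, hS0, hS1, hs0, peel0, peel1⟩ := hmodel n e hb M hnM hℓM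
  exact SPOfModel8.sp_of_twoCharts h hℓ hℓM A hA n e (tMem_of_dvd hb hnM) (tGenBase' hb) T hS0 hS1
    hs0 peel0 peel1 hCL hlev

/-- **(SP) from the model input**, at the auxiliary level. -/
theorem sp_of_model (ℓ N : ℕ) [NeZero N] (hℓ : ℓ.Prime) (hℓN : ¬ ℓ ∣ N)
    (A : ValuationSubring Qbar) (hA : A.LiesOverPrime ℓ) (hmodel : ModelAt A ℓ) :
    Skeleton8.SP N ℓ hℓ A := by
  have : Fact ℓ.Prime := ⟨hℓ⟩
  have := LevelDegree17.neZero_auxLevel ℓ N
  have hℓM : ¬ ℓ ∣ auxLevel ℓ N := not_dvd_auxLevel hℓ hℓN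
  have hCL : CLBar ℓ (auxLevel ℓ N) A := Fermat.Agent.RED.S18Exports4.clBar_aux N ℓ hℓN A hA
  have hlev : ∀ m : ℕ, 0 < m → ∀ x : JZero N, m • x = 0 →
      levelPullback (dvd_auxLevel ℓ N) x = 0 → x = 0 := fun m hm x hmx hx =>
    PullbackInj12.levelPullback_auxLevel_eq_zero ℓ N m hm x hmx hx
  by_cases h2 : ℓ = 2
  · have : NeZero 9 := ⟨by norm_num⟩
    exact sp_of_modelAt (dvd_auxLevel ℓ N) hℓ hℓM A hA hmodel 9 3 baseHyp_nine
      (AuxBase8.nine_dvd_auxLevel N h2) hCL hlev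
  · have : NeZero 4 := ⟨by norm_num⟩
    exact sp_of_modelAt (dvd_auxLevel ℓ N) hℓ hℓM A hA hmodel 4 8 baseHyp_four
      (AuxBase8.four_dvd_auxLevel N h2) hCL hlev

/-- **S37 from the model input.** -/
theorem s37_of_model (N p : ℕ) [NeZero N] (hcomm : HeckeOperatorsCommuteBar N)
    (hmodel : ∀ (ℓ : ℕ), ℓ.Prime → ∀ A : ValuationSubring Qbar, A.LiesOverPrime ℓ → ModelAt A ℓ) :
    letI := heckeModuleBar N
    ∀ (_ : SMulCommClass (AlgebraicClosure ℚ ≃ₐ[ℚ] AlgebraicClosure ℚ) HeckeAlg (JZero N)),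
      SpecializationExists (K := ℚ) (L := AlgebraicClosure ℚ) N p (JZero N) :=
  Skeleton8.s37_of_SP N p hcomm
    (fun ℓ hℓ hℓN A hA => sp_of_model ℓ N hℓ hℓN A hA (hmodel ℓ hℓ A hA))
    (fun ℓ hℓ A hA => Fermat.Agent.ES.FROB.FrobFacts12.frobFacts ℓ hℓ A hA)

end Fermat.Agent.ES.TOP.SPAux8
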