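/-
Program I (S37), chapter TOP, helper8 (integration): the model input `SPAux8.ModelAt A ℓ` from
helper4's closed chapter B1 (`ModelInstFinal4`) and helper3's `BaseCases3.exists_cuspExports`.
Hence `SPAux8.s37_of_model` applies unconditionally: `s37_main`.
-/
import Mathlib
import Fermat.Agent.ES.TOP.SPAux8
import Fermat.Agent.ES.RED.ModelInstFinal4
import Fermat.Agent.ES.RED.BaseCases3

set_option autoImplicit false
set_option synthInstance.maxHeartbeats 400000

noncomputable section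

open AlgebraicCurve ModularCurve IntermediateField

namespace Fermat.Agent.ES.TOP.ModelAtFinal8

open Fermat.Agent.RED.Interface4 Fermat.Agent.RED.BASE Fermat.Agent.RED.BASE.Hauptmodul12
  Fermat.Agent.ES.RED Fermat.Agent.ES.RED.ModelInstFinal4

/-- **B1 ⇒ the model input of TOP.** -/
theorem modelAt (ℓ : ℕ) (hℓ : ℓ.Prime) (A : ValuationSubring Qbar) (hA : A.LiesOverPrime ℓ) :
    SPAux8.ModelAt A ℓ := by
  intro n e _ hb M _ hnM hℓM
  have : Fact ℓ.Prime := ⟨hℓ⟩
  obtain ⟨cv, hcv⟩ := BaseCases3.exists_cuspExports hb M hnM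
  exact ⟨_, _,
    twoCharts_final n e M ℓ hℓM (tMem_of_dvd hb hnM) (tGenBase' hb) A hA hb hnM cv hcv,
    coeffChart0_final n e M ℓ hℓM (tMem_of_dvd hb hnM) (tGenBase' hb) A hA,
    coeffChart1_final n e M ℓ hℓM (tMem_of_dvd hb hnM) (tGenBase' hb) A hA,
    rfl,
    peelA0_final n e M ℓ hℓM (tMem_of_dvd hb hnM) (tGenBase' hb) A hA hb hnM cv hcv,
    peelA1_final n e M ℓ hℓM (tMem_of_dvd hb hnM) (tGenBase' hb) A hA hb hnM cv hcv⟩

/-- **S37**, unconditional, in the frozen shape. -/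
theorem s37_main (N p : ℕ) [NeZero N] (hcomm : HeckeOperatorsCommuteBar N) :
    letI := heckeModuleBar N
    ∀ (_ : SMulCommClass (AlgebraicClosure ℚ ≃ₐ[ℚ] AlgebraicClosure ℚ) HeckeAlg (JZero N)),
      SpecializationExists (K := ℚ) (L := AlgebraicClosure ℚ) N p (JZero N) :=
  SPAux8.s37_of_model N p hcomm (fun ℓ hℓ A hA => modelAt ℓ hℓ A hA)

end Fermat.Agent.ES.TOP.ModelAtFinal8
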