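/-
Program I (S37), chapter TOP, helper21: the contract `Skeleton8.SP N ℓ hℓ A` from a concrete two-chart
model `T : TwoCharts A hx F̃_M` at level `M` (`N ∣ M`, `ℓ ∤ M`) whose two charts are coefficientwise
(`GaloisInst21.CoeffChart`) with coordinate `T.S0.s = tF M hmem` and satisfy (PEEL-a).

Everything else is plugged in from the landed chapters:
* `hr`  : `RedInst15.isPlaceReductionModL_main`, `hgen` : `GaussUnit25.principalGeneratedByIntegral`;
* (Φ1), (Φ2) : `PhiOneTwo21` with (R3) = `GaloisInst21.r_smul_of_mem_inertia'` /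
  `r_smul_of_isFrobeniusAt'`, (ES-div) = `EsDivFinal24.es_div_final`, (H5) =
  `LevelTop20.levelPullback_heckeOperatorAlong`;
* (Φ3) : hypothesis `h3` (general `M`), resp. `PhiThree12.phi_three` + `S18Exports4.clBar_aux`
  (`M = auxLevel ℓ N`).
-/
import Mathlib
import Fermat.Agent.ES.TOP.PhiOneTwo21
import Fermat.Agent.ES.TOP.SPMain12
import Fermat.Agent.ES.RED.GaloisInst21
import Fermat.Agent.ES.RED.RedInst15
import Fermat.Agent.ES.RED.FrobPoles13
import Fermat.Agent.ES.RED.ChartSpecOfChart18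
import Fermat.Agent.ES.KRON.EsDivFinal24
import Fermat.Agent.ES.KRON.KronInst10
import Fermat.Agent.ES.HECKE.LevelTop20

set_option autoImplicit false
set_option synthInstance.maxHeartbeats 400000

noncomputable section

open AlgebraicCurve ModularCurve IntermediateField

namespace Fermat.Agent.ES.TOP.SPFinal21

open Fermat.Agent.ES.HECKE.LevelPullback12 Fermat.Agent.ES.KRON.FrobPlace13
open Fermat.Agent.ES.RED.Contract8 Fermat.Agent.ES.RED.TwoCharts8 Fermat.Agent.ES.RED.GaloisInst21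
open Fermat.Agent.ES.RED.RedMain15
open Fermat.Agent.X0 Fermat.Agent.X0.FF Fermat.Agent.RED.Interface4 Fermat.Agent.RED.BASE
open Fermat.Agent.ES.HECKE Fermat.Agent.ES.RED Fermat.Agent.ES.KRON

local notation "Qb" => AlgebraicClosure ℚ

section General

variable {N M : ℕ} [NeZero N] [NeZero M] (h : N ∣ M) (n e : ℕ) [NeZero n]
  {ℓ : ℕ} (hℓ : ℓ.Prime) (hℓM : ¬ ℓ ∣ M)
  (hmem : Interface12.TMem n e M) (hgen : Interface12.TGenBase n e)
  (A : ValuationSubring Qb) (hA : A.LiesOverPrime ℓ)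
  {x : X0.FF M} {hx : IsGen Qb x}
  (T : TwoCharts A hx ↥(modularFunctionFieldFullC (kA A) M))
  (hS0 : CoeffChart (F₀ := modularFunctionFieldFull M) T.S0)
  (hS1 : CoeffChart (F₀ := modularFunctionFieldFull M) T.S1)
  (hs0 : T.S0.s = Interface12.tF M hmem)
  (peel0 : ∀ (P : Place Qb (X0.FF M)) (hP : T.S0.InChart P), T.S0.PeelA P hP)
  (peel1 : ∀ (P : Place Qb (X0.FF M)) (hP : T.S1.InChart P), T.S1.PeelA P hP)

include hℓ hℓM hgen hA hS0 hS1 hs0 peel0 peel1 in
/-- the place reduction property of `T.r`. -/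
theorem hr_main : IsPlaceReductionModL A M T.r :=
  haveI : Fact ℓ.Prime := ⟨hℓ⟩
  RedInst15.isPlaceReductionModL_main n e M ℓ hℓM hmem hgen A hA T hS0 hS1 hs0 peel0 peel1

include hℓ hℓM hA in
/-- `(Rgen)` at level `M`. -/
theorem hgen_main : PrincipalGeneratedByIntegral A (IsLocalRing.residue A) M :=
  haveI : Fact ℓ.Prime := ⟨hℓ⟩
  GaussUnit25.principalGeneratedByIntegral A ℓ hA M hℓM

include hℓ hℓM hgen hA hS0 hS1 hs0 peel0 peel1 in
/-- **(SP) from a concrete two-chart model at level `M`**, (Φ3) as a hypothesis. -/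
theorem sp_of_twoCharts
    (h3 : ∀ (hr : IsPlaceReductionAlong A (IsLocalRing.residue A) M T.r)
      (hg : PrincipalGeneratedByIntegral A (IsLocalRing.residue A) M) (m : ℕ) (x : JZero N),
      ¬ ℓ ∣ m → m • x = 0 → reductionPic0Along T.r hr hg (levelPullback h x) = 0 → x = 0) :
    Skeleton8.SP N ℓ hℓ A := by
  haveI : Fact ℓ.Prime := ⟨hℓ⟩
  haveI : NeZero ℓ := ⟨hℓ.ne_zero⟩
  haveI : IsAlgClosed (kA A) := KronInst10.isAlgClosed_residueField A
  haveI : CharP (kA A) ℓ := KronInst10.charP_residueField A hℓ hA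
  haveI := InputsMain19.hasPrincipalDivisors_level M ℓ
  have hin := RedInst15.chartInputs_both n e M ℓ hℓM hmem hgen A hA T hS0 hS1 hs0 peel0 peel1
  have hr := hr_main n e hℓ hℓM hmem hgen A hA T hS0 hS1 hs0 peel0 peel1
  have hg := hgen_main hℓ hℓM A hA
  have hxt := hin.1.gent
  have hfix : frobSemi (kA A) ℓ M • T.S0.red T.S0.sB = T.S0.red T.S0.sB := by
    refine FrobPoles13.frobSemi_smul_tq (kA A) ℓ M n e ?_
    rw [RedInst15.red_sB_eq_tRes n e M ℓ hℓM hmem hgen A hA T.S0 hS0 hs0]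
    rfl
  refine PhiOneTwo21.sp_of_phi_div h T.r hr hg hℓ hℓM
    (AlongDegree25.heckeAlphaBarIntegral Qb M ℓ hℓ hℓM)
    (AlongDegree25.heckeBetaBarIntegral Qb M ℓ hℓ hℓM) ?_ ?_ ?_ ?_ (h3 hr hg)
  · intro τ hτ P
    exact r_smul_of_mem_inertia' T hxt hS0 hS1 hτ P
  · intro σ hσ P
    exact r_smul_of_isFrobeniusAt' T hxt hS0 hS1 hσ P
  · intro D
    exact EsDivFinal24.es_div_final M ℓ A T hin.1 hin.2 hℓM _ _
      (InputsMain19.fundamentalIdentityAlong_beta M ℓ hℓ hℓM)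
      (AlongDegree25.finiteAlong_alpha Qb M ℓ hℓ hℓM)
      (InputsFinal15.normFormulaAlong_alpha M ℓ hℓ hℓM)
      (fun P hs b hb => ChartSpecOfChart18.mem_place_of_mem_chart' A T.S0.s P hs
        ((hS0.mem_iff b).1 hb))
      (fun P hs b hb => ChartSpecOfChart18.mem_place_of_mem_chart' A T.S1.s P hs
        ((hS1.mem_iff b).1 hb))
      hfix D
  · intro x
    exact LevelTop20.levelPullback_heckeOperatorAlong h hℓ hℓM x

end General

section Aux

open Fermat.Agent.RED.LVL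

/-- **(SP) from a concrete two-chart model at the auxiliary level `M = auxLevel ℓ N`**: (Φ3) is
unconditional (`PhiThree12.phi_three` with Program H's core lemma `S18Exports4.clBar_aux`). The only
inputs left are the B1 deliverables: the Hauptmodul datum `(n, e)` at level `auxLevel ℓ N`, `T`,
`CoeffChart T.S0`, `CoeffChart T.S1`, `T.S0.s = tF`, (PEEL-a) for both charts. -/
theorem sp_of_twoCharts_aux (ℓ N : ℕ) [NeZero N] (hℓ : ℓ.Prime) (hℓN : ¬ ℓ ∣ N)
    (A : ValuationSubring Qb) (hA : A.LiesOverPrime ℓ)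
    [NeZero (auxLevel ℓ N)] (n e : ℕ) [NeZero n]
    (hmem : Interface12.TMem n e (auxLevel ℓ N)) (hgen : Interface12.TGenBase n e)
    {x : X0.FF (auxLevel ℓ N)} {hx : IsGen Qb x}
    (T : TwoCharts A hx ↥(modularFunctionFieldFullC (kA A) (auxLevel ℓ N)))
    (hS0 : CoeffChart (F₀ := modularFunctionFieldFull (auxLevel ℓ N)) T.S0)
    (hS1 : CoeffChart (F₀ := modularFunctionFieldFull (auxLevel ℓ N)) T.S1)
    (hs0 : T.S0.s = Interface12.tF (auxLevel ℓ N) hmem)
    (peel0 : ∀ (P : Place Qb (X0.FF (auxLevel ℓ N))) (hP : T.S0.InChart P), T.S0.PeelA P hP)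
    (peel1 : ∀ (P : Place Qb (X0.FF (auxLevel ℓ N))) (hP : T.S1.InChart P), T.S1.PeelA P hP) :
    Skeleton8.SP N ℓ hℓ A := by
  haveI : Fact ℓ.Prime := ⟨hℓ⟩
  refine sp_of_twoCharts (dvd_auxLevel ℓ N) n e hℓ (not_dvd_auxLevel hℓ hℓN) hmem hgen A hA T
    hS0 hS1 hs0 peel0 peel1 ?_
  intro hr hg m x hm hmx hx
  exact PhiThree12.phi_three A (Fermat.Agent.RED.S18Exports4.clBar_aux N ℓ hℓN A hA) T.r hr hg
    m hm x hmx hx

end Aux

end Fermat.Agent.ES.TOP.SPFinal21
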